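import Fermat.Agent.S36.StepA.Lvl2
import Fermat.Agent.S36.StepA.Tame
import Fermat.Agent.S36.StepA.InertiaTrans
import Fermat.Agent.DR.Hecke.Galois
import Fermat.Agent.DR.Hecke.Degen

/-!
# S36, route R, block NORM-C: reduction of norms, at the level of series over `Kbar`

`u ∈ FN (M q q)` fixed by the inertia group `I_A`.  `W = w_{q²}`, `ι = ι_ζ` a middle expansion.
* `red_normAlong_a2` : `red (N_α u) = red u * red (ι u) ^ (q - 1)`;
* `red_qExpand_normAlong_b2` : `red ((N_β u)(t^q)) = red u ^ q`;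
* `red_W_a2_normAlong_a2` : `red (W (α (N_α u))) = red (W u) ^ q`;
* `red_wq_normAlong_b2` : `red (w_q (N_β u)) = red (W u) * red (ι u) ^ (q - 1)`.
-/

set_option autoImplicit false
set_option linter.unusedSectionVars false

noncomputable section

namespace Fermat.Agent.S36R.NormC

open AlgebraicCurve ModularCurve Fermat.Agent.S24 Fermat.Agent.GAL Fermat.Agent.GAL.Gauss
  Fermat.Agent.DR.Conc Fermat.Agent.S36.StepA

variable {A : ValuationSubring Kbar} {M q : ℕ} [NeZero M] [NeZero q]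

/-! ### `Red` under inertia and under `t ↦ ζ t` -/

theorem red_inertia {s : LaurentSeries Kbar} {r : LaurentSeries (IsLocalRing.ResidueField ↥A)}
    (h : Red A s r) {τ : Kbar ≃ₐ[ℚ] Kbar} (hτ : τ ∈ A.inertiaSubgroupIn ℚ) :
    Red A (coeffMap (τ : Kbar →+* Kbar) s) r := by
  obtain ⟨τ', hτ', rfl⟩ := hτ
  have h1 : barAut A τ' = 1 := hτ'
  have h3 := h.coeffMap τ'
  have h5 : coeffMap ((barAut A τ' : _ ≃+* _) : _ →+* _) r = r := by
    rw [h1]; ext n; rfl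
  rwa [h5] at h3

theorem red_twist (hq : q.Prime) (hA : A.LiesOverPrime q) {s : LaurentSeries Kbar}
    {r : LaurentSeries (IsLocalRing.ResidueField ↥A)} (h : Red A s r) {ζ : Kbar} (hζ : ζ ^ q = 1)
    (hζ0 : ζ ≠ 0) : Red A (Fermat.Agent.S24.twist ζ hζ0 s) r := by
  obtain ⟨h', rfl⟩ := h
  obtain ⟨h1, h2⟩ := Normalise_zeta_mem A hq.pos hζ
  exact ⟨twist_mem_gRing A hζ0 h1 h2 h',
    gRes_twist A hζ0 h1 h2 (Normalise_residue_zeta A q hq hA hζ h1) h'⟩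

theorem red_prod {ι : Type*} (S : Finset ι) (f : ι → LaurentSeries Kbar)
    (r : ι → LaurentSeries (IsLocalRing.ResidueField ↥A)) (h : ∀ i ∈ S, Red A (f i) (r i)) :
    Red A (∏ i ∈ S, f i) (∏ i ∈ S, r i) := by
  classical
  induction S using Finset.induction_on with
  | empty => rw [Finset.prod_empty, Finset.prod_empty]; exact Red.one
  | insert a S ha ih =>
    rw [Finset.prod_insert ha, Finset.prod_insert ha]
    exact (h a (Finset.mem_insert_self a S)).mul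
      (ih fun i hi => h i (Finset.mem_insert_of_mem hi))

/-! ### conjugates of a middle expansion -/

/-- `τ ∘ ι ∘ τ⁻¹`. -/
def conjMid (ι : FN (M * q * q) →+* LaurentSeries Kbar) (τ : Kbar ≃ₐ[ℚ] Kbar) :
    FN (M * q * q) →+* LaurentSeries Kbar :=
  (coeffMap (τ : Kbar →+* Kbar)).comp (ι.comp ((gal (M * q * q) τ⁻¹ : _ ≃+* _) : _ →+* _))

theorem conjMid_apply (ι : FN (M * q * q) →+* LaurentSeries Kbar) (τ : Kbar ≃ₐ[ℚ] Kbar)
    (u : FN (M * q * q)) :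
    conjMid ι τ u = coeffMap (τ : Kbar →+* Kbar) (ι (gal (M * q * q) τ⁻¹ u)) := rfl

theorem coeffMap_gal_inv (N : ℕ) (τ : Kbar ≃ₐ[ℚ] Kbar) (x : FN N) :
    coeffMap (τ : Kbar →+* Kbar) ((gal N τ⁻¹ x : FN N) : LaurentSeries Kbar) =
      (x : LaurentSeries Kbar) := by
  have h : gal N τ (gal N τ⁻¹ x) = x := by
    apply Subtype.ext
    ext n
    simp [gal]
  exact congrArg Subtype.val h

theorem coeffMap_twist' (τ : Kbar ≃ₐ[ℚ] Kbar) {ζ : Kbar} (hζ0 : ζ ≠ 0) (s : LaurentSeries Kbar) :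
    coeffMap (τ : Kbar →+* Kbar) (Fermat.Agent.S24.twist ζ hζ0 s) =
      Fermat.Agent.S24.twist (τ ζ) ((map_ne_zero τ).2 hζ0) (coeffMap (τ : Kbar →+* Kbar) s) := by
  ext n
  simp [twist_coeff, coeffMap_coeff, map_zpow₀]

theorem wq_gal (hq : q.Prime) (hqM : ¬ q ∣ M) (σ : Kbar ≃ₐ[ℚ] Kbar) (x : FN (M * q)) :
    DR.wq M q (gal (M * q) σ x) = gal (M * q) σ (DR.wq M q x) := by
  rw [DR.Hecke.wq_eq hq hqM]
  exact DR.Hecke.wHom_arithmeticRingAut hq hqM σ x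

theorem isMid_conjMid (hq : q.Prime) (hqM : ¬ q ∣ M) {ζ : Kbar} {hζ0 : ζ ≠ 0}
    {ι : FN (M * q * q) →+* LaurentSeries Kbar} (h : IsMid M q ζ hζ0 ι) (τ : Kbar ≃ₐ[ℚ] Kbar) :
    IsMid M q (τ ζ) ((map_ne_zero τ).2 hζ0) (conjMid ι τ) where
  alpha x := by
    rw [conjMid_apply, a2, gal, ← heckeAlphaBar_arithmeticRingAut, h.alpha]
    exact coeffMap_gal_inv _ τ x
  beta x := by
    rw [conjMid_apply, b2, gal, ← heckeBetaBar_arithmeticRingAut, h.beta, coeffMap_twist']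
    congr 1
    have := wq_gal hq hqM τ⁻¹ x
    rw [gal] at this
    rw [this]
    exact coeffMap_gal_inv _ τ _

/-! ### the four reduction formulas -/

/-- `u` is fixed by the inertia group. -/
def IFix (A : ValuationSubring Kbar) {N : ℕ} (u : FN N) : Prop :=
  ∀ τ ∈ A.inertiaSubgroupIn ℚ, gal N τ u = u

theorem IFix.conjMid {u : FN (M * q * q)} (hu : IFix A u)
    (ι : FN (M * q * q) →+* LaurentSeries Kbar) {τ : Kbar ≃ₐ[ℚ] Kbar}
    (hτ : τ ∈ A.inertiaSubgroupIn ℚ) :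
    NormC.conjMid ι τ u = coeffMap (τ : Kbar →+* Kbar) (ι u) := by
  rw [conjMid_apply, hu τ⁻¹ (inv_mem hτ)]

/-- a family of middle expansions `ι_{ζ^i}`, all conjugate to `ι` under inertia. -/
theorem exists_family (hq : q.Prime) (hqM : ¬ q ∣ M) (hA : A.LiesOverPrime q) {ζ : Kbar}
    (hζ : IsPrimitiveRoot ζ q) {ι : FN (M * q * q) →+* LaurentSeries Kbar}
    (hι : IsMid M q ζ (hζ.ne_zero hq.ne_zero) ι) :
    ∃ (ι' : ℕ → FN (M * q * q) →+* LaurentSeries Kbar),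
      (∀ i, 0 < i → i < q → IsMid M q (ζ ^ i) (pow_ne_zero _ (hζ.ne_zero hq.ne_zero)) (ι' i)) ∧
      ∀ i, 0 < i → i < q → ∃ τ ∈ A.inertiaSubgroupIn ℚ, ι' i = NormC.conjMid ι τ := by
  classical
  have key : ∀ i : ℕ, ∃ τ : Kbar ≃ₐ[ℚ] Kbar, 0 < i → i < q →
      τ ∈ A.inertiaSubgroupIn ℚ ∧ τ ζ = ζ ^ i := by
    intro i
    by_cases h : 0 < i ∧ i < q
    · obtain ⟨τ, h1, h2⟩ := exists_inertia_zeta_pow A hq hA hζ h.1 h.2
      exact ⟨τ, fun _ _ => ⟨h1, h2⟩⟩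
    · exact ⟨1, fun h1 h2 => (h ⟨h1, h2⟩).elim⟩
  choose τ hτ using key
  refine ⟨fun i => NormC.conjMid ι (τ i), fun i h1 h2 => ?_, fun i h1 h2 => ⟨τ i, (hτ i h1 h2).1, rfl⟩⟩
  have h3 := isMid_conjMid hq hqM hι (τ i)
  have h4 := (hτ i h1 h2).2
  constructor
  · exact h3.alpha
  · intro x
    rw [h3.beta x]
    ext n
    rw [twist_coeff, twist_coeff, h4]

/-- **(NR-A1)** -/
theorem red_normAlong_a2 (hq : q.Prime) (hqM : ¬ q ∣ M) (hA : A.LiesOverPrime q) {ζ : Kbar}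
    (hζ : IsPrimitiveRoot ζ q) {ι : FN (M * q * q) →+* LaurentSeries Kbar}
    (hι : IsMid M q ζ (hζ.ne_zero hq.ne_zero) ι) {u : FN (M * q * q)} (hu : IFix A u)
    {r₀ r₁ : LaurentSeries (IsLocalRing.ResidueField ↥A)}
    (h₀ : Red A (u : LaurentSeries Kbar) r₀) (h₁ : Red A (ι u) r₁) :
    Red A ((normAlong (a2 M q) u : FN (M * q)) : LaurentSeries Kbar) (r₀ * r₁ ^ (q - 1)) := by
  obtain ⟨ι', h1, h2⟩ := exists_family hq hqM hA hζ hι
  rw [coe_normAlong_a2 hq hqM hζ ι' h1 u]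
  refine h₀.mul ?_
  have h3 := red_prod (A := A) (Finset.Ioo 0 q) (fun i => ι' i u) (fun _ => r₁) (fun i hi => by
    obtain ⟨τ, hτ, e⟩ := h2 i (Finset.mem_Ioo.1 hi).1 (Finset.mem_Ioo.1 hi).2
    show Red A (ι' i u) r₁
    rw [e, hu.conjMid ι hτ]
    exact red_inertia h₁ hτ)
  rw [Finset.prod_const, Nat.card_Ioo, Nat.sub_zero] at h3
  exact h3

/-- **(NR-B2)** -/
theorem red_qExpand_normAlong_b2 (hq : q.Prime) (hA : A.LiesOverPrime q)
    {u : FN (M * q * q)} {r : LaurentSeries (IsLocalRing.ResidueField ↥A)}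
    (h : Red A (u : LaurentSeries Kbar) r) :
    Red A (qExpand Kbar q ((normAlong (b2 M q) u : FN (M * q)) : LaurentSeries Kbar)) (r ^ q) := by
  obtain ⟨ζ, hζ⟩ := HasEnoughRootsOfUnity.exists_primitiveRoot Kbar q
  rw [qExpand_normAlong_b2 hq hζ u]
  have h3 := red_prod (A := A) (Finset.univ : Finset (Fin q))
    (fun i => Fermat.Agent.S24.twist (ζ ^ (i : ℕ)) (pow_ne_zero _ (hζ.ne_zero hq.ne_zero))
        (u : LaurentSeries Kbar)) (fun _ => r) (fun i _ =>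
      red_twist hq hA h (by rw [← pow_mul, mul_comm, pow_mul, hζ.pow_eq_one, one_pow]) _)
  rw [Finset.prod_const, Finset.card_univ, Fintype.card_fin] at h3
  exact h3

/-- **(NR-A2)** -/
theorem red_W_a2_normAlong_a2 (hq : q.Prime) (hqM : ¬ q ∣ M) (hA : A.LiesOverPrime q)
    {W : FN (M * q * q) ≃ₐ[Kbar] FN (M * q * q)} (hW : IsW2 M q W)
    {u : FN (M * q * q)} {r : LaurentSeries (IsLocalRing.ResidueField ↥A)}
    (h : Red A ((W u : FN (M * q * q)) : LaurentSeries Kbar) r) :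
    Red A ((W (a2 M q (normAlong (a2 M q) u)) : FN (M * q * q)) : LaurentSeries Kbar) (r ^ q) := by
  rw [hW.alpha, ← normAlong_b2_W hq hqM hW, b2, coe_heckeBetaBar]
  exact red_qExpand_normAlong_b2 hq hA h

end Fermat.Agent.S36R.NormC
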