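import Fermat.Agent.S36R.Bridge.Abs
import Fermat.Agent.GAL.Model
import Mathlib.RingTheory.Norm.Basic
import Mathlib.RingTheory.IntegralClosure.IntegralRestrict

/-!
# S36, route R, block NORM-C: norms of integral elements are integral (abstract part)
-/

set_option autoImplicit false

namespace Fermat.Agent.S36R.NormC

open AlgebraicCurve Fermat.Agent.GAL Fermat.Agent.S36R.Bridge Polynomial

/-- the norm of an element integral over (the image of) `R` is integral over `R`. -/
theorem isIntegralElem_normAlong {K F F' : Type*} [Field K] [Field F] [Field F'] [Algebra K F]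
    [Algebra K F'] [CharZero F] (φ : F →ₐ[K] F') (hfin : FiniteAlong K φ) {R : Type*} [CommRing R]
    (g : R →+* F) {x : F'} (hx : ((φ : F →+* F').comp g).IsIntegralElem x) :
    g.IsIntegralElem (normAlong φ x) := by
  let _ := algebraAlong φ
  let _ := g.toAlgebra
  let _ := ((φ : F →+* F').comp g).toAlgebra
  have : IsScalarTower R F F' := IsScalarTower.of_algebraMap_eq fun _ => rfl
  have : Module.Finite F F' := hfin
  have hx' : IsIntegral R x := hx
  exact Algebra.isIntegral_norm F hx'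

theorem isIntegralElem_map {R S T : Type*} [CommRing R] [CommRing S] [CommRing T] (f : R →+* S)
    (b : S →+* T) {x : S} (hx : f.IsIntegralElem x) : (b.comp f).IsIntegralElem (b x) := by
  obtain ⟨p, hp, h⟩ := hx
  exact ⟨p, hp, by rw [← hom_eval₂, h, map_zero]⟩

theorem isIntegralElem_of_map {R S T : Type*} [CommRing R] [CommRing S] [CommRing T] (f : R →+* S)
    (b : S →+* T) (hb : Function.Injective b) {x : S} (hx : (b.comp f).IsIntegralElem (b x)) :
    f.IsIntegralElem x := by
  obtain ⟨p, hp, h⟩ := hx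
  refine ⟨p, hp, hb ?_⟩
  rw [hom_eval₂, h, map_zero]

section

variable {O : Type*} [CommRing O] {F₀ F₀' : Type*} [Field F₀] [Field F₀'] [Algebra O F₀]
  [Algebra O F₀']

/-- elements of `O[φ c]` come from `O[c]`. -/
theorem mem_range_of_mem_adjoin (φ₀ : F₀ →+* F₀')
    (hO : ∀ a : O, φ₀ (algebraMap O F₀ a) = algebraMap O F₀' a) (c : F₀) {x : F₀'}
    (hx : x ∈ Algebra.adjoin O {φ₀ c}) :
    x ∈ Set.range (φ₀.comp (algebraMap (Algebra.adjoin O {c}) F₀)) := by
  induction hx using Algebra.adjoin_induction with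
  | mem x hx =>
    rw [Set.mem_singleton_iff] at hx
    exact ⟨⟨c, Algebra.subset_adjoin (Set.mem_singleton c)⟩, hx.symm⟩
  | algebraMap a => exact ⟨algebraMap O _ a, hO a⟩
  | add x y _ _ hx hy =>
    obtain ⟨a, rfl⟩ := hx
    obtain ⟨b, rfl⟩ := hy
    exact ⟨a + b, map_add _ _ _⟩
  | mul x y _ _ hx hy =>
    obtain ⟨a, rfl⟩ := hx
    obtain ⟨b, rfl⟩ := hy
    exact ⟨a * b, map_mul _ _ _⟩

/-- **Norms of integral elements are integral**, for a norm `Nm` over `K0` which is the descent of the norm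
along `φ` over `Kbar`. -/
theorem int_abs {K F F' : Type*} [Field K] [Field F] [Field F'] [Algebra K F] [Algebra K F']
    [CharZero F] (φ : F →ₐ[K] F') (hfin : FiniteAlong K φ)
    (φ₀ : F₀ →+* F₀') (hO : ∀ a : O, φ₀ (algebraMap O F₀ a) = algebraMap O F₀' a)
    (b : F₀ →+* F) (b' : F₀' →+* F') (hφ : ∀ x, b' (φ₀ x) = φ (b x))
    (Nm : F₀' → F₀) (hN : ∀ z, b (Nm z) = normAlong φ (b' z)) (c : F₀) {s : F₀'}
    (hs : s ∈ RR O (φ₀ c)) : φ₀ (Nm s) ∈ RR O (φ₀ c) := by
  obtain ⟨P, hP, hcoe, hPs⟩ := exists_monic_of_mem_RR hs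
  have h1 : (φ₀.comp (algebraMap (Algebra.adjoin O {c}) F₀)).IsIntegralElem s :=
    isIntegralElem_of_coeff _ hP (fun i => mem_range_of_mem_adjoin φ₀ hO c (hcoe i)) hPs
  have h2 := isIntegralElem_map _ b' h1
  have e : b'.comp (φ₀.comp (algebraMap (Algebra.adjoin O {c}) F₀)) =
      (φ : F →+* F').comp (b.comp (algebraMap (Algebra.adjoin O {c}) F₀)) :=
    RingHom.ext fun x => hφ _
  rw [e] at h2
  have h3 := isIntegralElem_normAlong φ hfin _ h2
  rw [← hN] at h3
  have h4 : Nm s ∈ RR O c := isIntegralElem_of_map _ b b.injective h3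
  exact map_mem_RR φ₀ (fun a => by rw [hO]; exact Subalgebra.algebraMap_mem _ a)
    (Algebra.subset_adjoin (Set.mem_singleton _)) h4

/-- transitivity. -/
theorem RR_le_of_mem {c c' : F₀} (h : c ∈ RR O c') : RR O c ≤ RR O c' := by
  intro z hz
  have h1 : ∀ x ∈ Algebra.adjoin O {c}, x ∈ RR O c' := by
    intro x hx
    induction hx using Algebra.adjoin_induction with
    | mem x hx => rw [Set.mem_singleton_iff] at hx; rw [hx]; exact h
    | algebraMap a => exact algebraMap_mem_RR c' a
    | add x y _ _ hx hy => exact add_mem hx hy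
    | mul x y _ _ hx hy => exact mul_mem hx hy
  obtain ⟨P, hP, hcoe, hPz⟩ := exists_monic_of_mem_RR hz
  have h2 : IsIntegral (integralClosure (Algebra.adjoin O {c'}) F₀) z :=
    isIntegralElem_of_coeff (algebraMap (integralClosure (Algebra.adjoin O {c'}) F₀) F₀) hP
      (fun i => ⟨⟨_, h1 _ (hcoe i)⟩, rfl⟩) hPz
  exact mem_RR.2 (isIntegral_trans _ h2)

end

end Fermat.Agent.S36R.NormC
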