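import Fermat.Agent.S36.StepA.Tame
import Fermat.Agent.S36R.Contracts
import Fermat.Agent.S36R.K0.Fixed

/-!
# S36, route R: the concrete vertical valuation rings (`W20, W11, W02`, `V10, V01`)

* `gVS A φ h` : the valuation subring `{y | φ y ∈ gRing A}` of a field `F` attached to a ring
  homomorphism `φ : F → Kbar((t))` all of whose nonzero values are (constant) * (Gauss unit);
  dictionary: `mem_gVS`, `gVS_lt_one_iff`, `gVS_eq_one_iff`, `cg_gVS_iff`, `isU_gVS_iff`.
* `Setup A M q` : the data (`ζ`, `W = w_{q²}`, `ι = ι_ζ`) needed to define the three expansions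
  `S.e0, S.e1, S.e2 : FF K0 (M q q) → Kbar((t))` and `S.d0, S.d1 : FF K0 (M q) → Kbar((t))`;
* `S.W : Fin 3 → ValuationSubring (FF K0 (M q q))`, `S.V : Fin 2 → ValuationSubring (FF K0 (M q))`.
-/

set_option autoImplicit false
set_option linter.unusedSectionVars false

noncomputable section

namespace Fermat.Agent.S36R.NormC

open AlgebraicCurve ModularCurve Fermat.Agent.S24 Fermat.Agent.GAL Fermat.Agent.GAL.Gauss
  Fermat.Agent.DR.Conc Fermat.Agent.S36.StepA Fermat.Agent.GAL.NormFormula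

variable (A : ValuationSubring Kbar)

/-- Gauss units. -/
def GU (s : LaurentSeries Kbar) : Prop := ∃ r, r ≠ 0 ∧ Red A s r

section gVS

variable {F : Type*} [Field F] (φ : F →+* LaurentSeries Kbar)
  (h : ∀ y : F, y ≠ 0 → Normable A (φ y))

/-- The Gauss valuation subring of the expansion `φ`. -/
def gVS : ValuationSubring F where
  toSubring := (gRing A).comap φ
  mem_or_inv_mem' x := by
    by_cases hx0 : x = 0
    · subst hx0
      exact Or.inl (Subring.zero_mem _)
    obtain ⟨a, u, ha, hxu, hu⟩ := normable_iff'.1 (h x hx0)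
    rcases A.mem_or_inv_mem a with h | h
    · left
      show φ x ∈ gRing A
      rw [hxu]
      exact (C_mul_unit_mem_iff A a u hu).mpr h
    · right
      show φ x⁻¹ ∈ gRing A
      rw [map_inv₀, hxu, mul_inv, ← map_inv₀]
      exact (gRing A).mul_mem ((C_mem_gRing_iff A _).mpr h)
        (inv_mem_gRing_of_gRes_ne_zero A u hu)

variable {A φ h}

theorem mem_gVS {y : F} : y ∈ gVS A φ h ↔ φ y ∈ gRing A := Iff.rfl

theorem gVS_le_one_iff {y : F} : (gVS A φ h).valuation y ≤ 1 ↔ φ y ∈ gRing A :=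
  (gVS A φ h).valuation_le_one_iff y

theorem gVS_eq_one_iff {y : F} : (gVS A φ h).valuation y = 1 ↔ GU A (φ y) := by
  constructor
  · intro hy
    have hy0 : y ≠ 0 := by
      rintro rfl
      rw [map_zero] at hy
      exact zero_ne_one hy
    have h1 : φ y ∈ gRing A := gVS_le_one_iff.1 hy.le
    have h2 : φ y⁻¹ ∈ gRing A := gVS_le_one_iff.1 (by rw [map_inv₀, hy, inv_one])
    refine ⟨_, ?_, h1, rfl⟩
    intro h0
    have e : (⟨_, h1⟩ : ↥(gRing A)) * ⟨_, h2⟩ = 1 := by
      apply Subtype.ext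
      show φ y * φ y⁻¹ = 1
      rw [← map_mul, mul_inv_cancel₀ hy0, map_one]
    have := congrArg (gRes A) e
    rw [map_mul, h0, zero_mul, map_one] at this
    exact zero_ne_one this
  · rintro ⟨r, hr, h1, rfl⟩
    have h2 : φ y⁻¹ ∈ gRing A := by
      rw [map_inv₀]
      exact inv_mem_gRing_of_gRes_ne_zero A ⟨_, h1⟩ hr
    have h3 : (gVS A φ h).valuation y ≤ 1 := gVS_le_one_iff.2 h1
    have h4 : (gVS A φ h).valuation y⁻¹ ≤ 1 := gVS_le_one_iff.2 h2
    have hy0 : y ≠ 0 := by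
      rintro rfl
      apply hr
      have : (⟨φ 0, h1⟩ : ↥(gRing A)) = 0 := Subtype.ext (map_zero φ)
      rw [this, map_zero]
    rw [map_inv₀] at h4
    have h5 : (gVS A φ h).valuation y ≠ 0 := (Valuation.ne_zero_iff _).2 hy0
    exact le_antisymm h3 ((inv_le_one₀ (zero_lt_iff.2 h5)).1 h4)

theorem gVS_lt_one_iff {y : F} : (gVS A φ h).valuation y < 1 ↔ Red A (φ y) 0 := by
  constructor
  · intro hy
    have h1 : φ y ∈ gRing A := gVS_le_one_iff.1 hy.le
    refine ⟨h1, ?_⟩
    by_contra h0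
    exact hy.ne (gVS_eq_one_iff.2 ⟨_, h0, h1, rfl⟩)
  · intro hy
    refine lt_of_le_of_ne (gVS_le_one_iff.2 hy.1) ?_
    intro h1
    obtain ⟨r, hr, h2⟩ := gVS_eq_one_iff.1 h1
    exact hr (h2.unique hy)

theorem isU_gVS_iff {y : F} : IsU (gVS A φ h) y ↔ GU A (φ y) := gVS_eq_one_iff

theorem cg_gVS_iff {x y : F} : Cg (gVS A φ h) x y ↔ Red A (φ x - φ y) 0 := by
  rw [Cg, gVS_lt_one_iff, map_sub]

theorem red_sub {s t : LaurentSeries Kbar} {r r' : LaurentSeries (IsLocalRing.ResidueField ↥A)}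
    (hs : Red A s r) (ht : Red A t r') : Red A (s - t) (r - r') := by
  obtain ⟨h, rfl⟩ := hs
  obtain ⟨h', rfl⟩ := ht
  refine ⟨sub_mem h h', ?_⟩
  rw [← map_sub]
  exact congrArg _ (Subtype.ext rfl)

theorem red_add {s t : LaurentSeries Kbar} {r r' : LaurentSeries (IsLocalRing.ResidueField ↥A)}
    (hs : Red A s r) (ht : Red A t r') : Red A (s + t) (r + r') := by
  obtain ⟨h, rfl⟩ := hs
  obtain ⟨h', rfl⟩ := ht
  refine ⟨add_mem h h', ?_⟩
  rw [← map_add]
  exact congrArg _ (Subtype.ext rfl)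

/-- `x ≡ y` and `red x = r` imply `red y = r`. -/
theorem red_of_cg {x y : F} (hc : Cg (gVS A φ h) x y)
    {r : LaurentSeries (IsLocalRing.ResidueField ↥A)} (hx : Red A (φ x) r) : Red A (φ y) r := by
  have := red_sub hx (cg_gVS_iff.1 hc)
  rwa [sub_sub_cancel, sub_zero] at this

theorem cg_of_red {x y : F} {r : LaurentSeries (IsLocalRing.ResidueField ↥A)}
    (hx : Red A (φ x) r) (hy : Red A (φ y) r) : Cg (gVS A φ h) x y := by
  rw [cg_gVS_iff]
  have := red_sub hx hy
  rwa [sub_self] at this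

theorem exists_red_of_mem {x : F} (hx : x ∈ gVS A φ h) : ∃ r, Red A (φ x) r := ⟨_, hx, rfl⟩

/-- two expansions with the same Gauss ring define the same valuation ring. -/
theorem gVS_comap {F' : Type*} [Field F'] (f : F' →+* F) (φ' : F' →+* LaurentSeries Kbar)
    (h' : ∀ y : F', y ≠ 0 → Normable A (φ' y))
    (e : ∀ y : F', φ (f y) ∈ gRing A ↔ φ' y ∈ gRing A) :
    (gVS A φ h).comap f = gVS A φ' h' := by
  ext y
  exact e y

end gVS

end Fermat.Agent.S36R.NormC
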