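import Fermat.Agent.S36R.NormC.Series
import Fermat.Agent.S36R.NormC.Vals

/-!
# S36, route R, block NORM-C: series level, part 2

* `mid_W` : `ι (W u) = (τ (ι u))(ζ t)` for an inertia-fixed `u` (`τ ζ = ζ⁻¹`);
* `red_wq_normAlong_b2` : (NR-B1);
* the calculus of Gauss units `GU`, and the valuations of norms (NV).
-/

set_option autoImplicit false
set_option linter.unusedSectionVars false

noncomputable section

namespace Fermat.Agent.S36R.NormC

open AlgebraicCurve ModularCurve Fermat.Agent.S24 Fermat.Agent.GAL Fermat.Agent.GAL.Gauss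
  Fermat.Agent.DR.Conc Fermat.Agent.S36.StepA

variable {A : ValuationSubring Kbar} {M q : ℕ} [NeZero M] [NeZero q]

theorem twist_twist_inv {ζ : Kbar} (hζ0 : ζ ≠ 0) (s : LaurentSeries Kbar) :
    Fermat.Agent.S24.twist ζ⁻¹ (inv_ne_zero hζ0) (Fermat.Agent.S24.twist ζ hζ0 s) = s := by
  ext n
  rw [twist_coeff, twist_coeff, ← mul_assoc, inv_zpow, inv_mul_cancel₀ (zpow_ne_zero _ hζ0), one_mul]

theorem twist_inv_twist {ζ : Kbar} (hζ0 : ζ ≠ 0) (s : LaurentSeries Kbar) :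
    Fermat.Agent.S24.twist ζ hζ0 (Fermat.Agent.S24.twist ζ⁻¹ (inv_ne_zero hζ0) s) = s := by
  ext n
  rw [twist_coeff, twist_coeff, ← mul_assoc, inv_zpow, mul_inv_cancel₀ (zpow_ne_zero _ hζ0), one_mul]

/-- `t ↦ ζ⁻¹ t` after `ι_ζ ∘ W` is `ι_{ζ⁻¹}`. -/
theorem isMid_W {ζ : Kbar} {hζ0 : ζ ≠ 0} {ι : FN (M * q * q) →+* LaurentSeries Kbar}
    (h : IsMid M q ζ hζ0 ι) {W : FN (M * q * q) ≃ₐ[Kbar] FN (M * q * q)} (hW : IsW2 M q W) :
    IsMid M q ζ⁻¹ (inv_ne_zero hζ0)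
      ((Fermat.Agent.S24.twist ζ⁻¹ (inv_ne_zero hζ0)).comp
        (ι.comp (W : FN (M * q * q) →+* FN (M * q * q)))) where
  alpha x := by
    show Fermat.Agent.S24.twist ζ⁻¹ (inv_ne_zero hζ0) (ι (W (a2 M q x))) = _
    rw [hW.alpha, h.beta, DR.wq_wq, twist_twist_inv]
  beta x := by
    show Fermat.Agent.S24.twist ζ⁻¹ (inv_ne_zero hζ0) (ι (W (b2 M q x))) = _
    rw [hW.beta, h.alpha]

/-- `ι (W u)` is, up to `t ↦ ζ t`, an inertia conjugate of `ι u`. -/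
theorem mid_W (hq : q.Prime) (hqM : ¬ q ∣ M) (hA : A.LiesOverPrime q) {ζ : Kbar}
    (hζ : IsPrimitiveRoot ζ q) {ι : FN (M * q * q) →+* LaurentSeries Kbar}
    (hι : IsMid M q ζ (hζ.ne_zero hq.ne_zero) ι)
    {W : FN (M * q * q) ≃ₐ[Kbar] FN (M * q * q)} (hW : IsW2 M q W) :
    ∃ τ ∈ A.inertiaSubgroupIn ℚ, ∀ u : FN (M * q * q), IFix A u →
      ι (W u) = Fermat.Agent.S24.twist ζ (hζ.ne_zero hq.ne_zero)
        (coeffMap (τ : Kbar →+* Kbar) (ι u)) := by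
  have hζ0 := hζ.ne_zero hq.ne_zero
  obtain ⟨τ, hτ, e⟩ := exists_inertia_map_zeta A hq hA hζ hζ.inv
  refine ⟨τ, hτ, fun u hu => ?_⟩
  have h1 := isMid_W hι hW
  have h2 := isMid_conjMid hq hqM hι τ
  have h3 : IsMid M q ζ⁻¹ (inv_ne_zero hζ0) (conjMid ι τ) := by
    constructor
    · exact h2.alpha
    · intro x
      rw [h2.beta x]
      ext n
      rw [twist_coeff, twist_coeff, e]
  have h4 := h1.unique hq h3
  have h5 := congrArg (fun f : FN (M * q * q) →+* LaurentSeries Kbar => f u) h4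
  have h6 : Fermat.Agent.S24.twist ζ⁻¹ (inv_ne_zero hζ0) (ι (W u)) =
      coeffMap (τ : Kbar →+* Kbar) (ι u) := by
    rw [← hu.conjMid ι hτ]
    exact h5
  rw [← h6, twist_inv_twist]

theorem IFix.W (hq : q.Prime) (hqM : ¬ q ∣ M) {u : FN (M * q * q)} (hu : IFix A u)
    {W : FN (M * q * q) ≃ₐ[Kbar] FN (M * q * q)} (hW : IsW2 M q W) : IFix A (W u) := by
  intro τ hτ
  rw [← hW.galois hq hqM, hu τ hτ]

theorem red_mid_W (hq : q.Prime) (hqM : ¬ q ∣ M) (hA : A.LiesOverPrime q) {ζ : Kbar}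
    (hζ : IsPrimitiveRoot ζ q) {ι : FN (M * q * q) →+* LaurentSeries Kbar}
    (hι : IsMid M q ζ (hζ.ne_zero hq.ne_zero) ι)
    {W : FN (M * q * q) ≃ₐ[Kbar] FN (M * q * q)} (hW : IsW2 M q W)
    {u : FN (M * q * q)} (hu : IFix A u) {r : LaurentSeries (IsLocalRing.ResidueField ↥A)}
    (h : Red A (ι u) r) : Red A (ι (W u)) r := by
  obtain ⟨τ, hτ, e⟩ := mid_W hq hqM hA hζ hι hW
  rw [e u hu]
  exact red_twist hq hA (red_inertia h hτ) hζ.pow_eq_one _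

theorem wq_normAlong_b2 (hq : q.Prime) (hqM : ¬ q ∣ M)
    {W : FN (M * q * q) ≃ₐ[Kbar] FN (M * q * q)} (hW : IsW2 M q W) (u : FN (M * q * q)) :
    DR.wq M q (normAlong (b2 M q) u) = normAlong (a2 M q) (W u) := by
  have h := normAlong_b2_W hq hqM hW (W u)
  rw [hW.invol] at h
  rw [h, DR.wq_wq]

/-- **(NR-B1)** -/
theorem red_wq_normAlong_b2 (hq : q.Prime) (hqM : ¬ q ∣ M) (hA : A.LiesOverPrime q) {ζ : Kbar}
    (hζ : IsPrimitiveRoot ζ q) {ι : FN (M * q * q) →+* LaurentSeries Kbar}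
    (hι : IsMid M q ζ (hζ.ne_zero hq.ne_zero) ι)
    {W : FN (M * q * q) ≃ₐ[Kbar] FN (M * q * q)} (hW : IsW2 M q W)
    {u : FN (M * q * q)} (hu : IFix A u)
    {r₂ r₁ : LaurentSeries (IsLocalRing.ResidueField ↥A)}
    (h₂ : Red A ((W u : FN (M * q * q)) : LaurentSeries Kbar) r₂) (h₁ : Red A (ι u) r₁) :
    Red A ((DR.wq M q (normAlong (b2 M q) u) : FN (M * q)) : LaurentSeries Kbar)
      (r₂ * r₁ ^ (q - 1)) := by
  rw [wq_normAlong_b2 hq hqM hW]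
  exact red_normAlong_a2 hq hqM hA hζ hι (hu.W hq hqM hW) h₂ (red_mid_W hq hqM hA hζ hι hW hu h₁)

/-! ### Gauss units -/

theorem GU.one : GU A 1 := ⟨1, one_ne_zero, Red.one⟩

theorem GU.mul {s t : LaurentSeries Kbar} (hs : GU A s) (ht : GU A t) : GU A (s * t) := by
  obtain ⟨r, hr, h⟩ := hs
  obtain ⟨r', hr', h'⟩ := ht
  exact ⟨r * r', mul_ne_zero hr hr', h.mul h'⟩

theorem GU.inv {s : LaurentSeries Kbar} (hs : GU A s) : GU A s⁻¹ := by
  obtain ⟨r, hr, h⟩ := hs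
  exact ⟨r⁻¹, inv_ne_zero hr, h.inv hr⟩

theorem GU.div {s t : LaurentSeries Kbar} (hs : GU A s) (ht : GU A t) : GU A (s / t) := by
  rw [div_eq_mul_inv]
  exact hs.mul ht.inv

theorem GU.pow {s : LaurentSeries Kbar} (hs : GU A s) (n : ℕ) : GU A (s ^ n) := by
  obtain ⟨r, hr, h⟩ := hs
  exact ⟨r ^ n, pow_ne_zero _ hr, h.pow n⟩

theorem GU.ne_zero {s : LaurentSeries Kbar} (hs : GU A s) : s ≠ 0 := by
  obtain ⟨r, hr, h⟩ := hs
  exact h.ne_zero hr

theorem GU.prod {κ : Type*} (S : Finset κ) (f : κ → LaurentSeries Kbar)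
    (h : ∀ i ∈ S, GU A (f i)) : GU A (∏ i ∈ S, f i) := by
  classical
  induction S using Finset.induction_on with
  | empty => rw [Finset.prod_empty]; exact GU.one
  | insert a S ha ih =>
    rw [Finset.prod_insert ha]
    exact (h a (Finset.mem_insert_self a S)).mul
      (ih fun i hi => h i (Finset.mem_insert_of_mem hi))

theorem GU.inertia {s : LaurentSeries Kbar} (hs : GU A s) {τ : Kbar ≃ₐ[ℚ] Kbar}
    (hτ : τ ∈ A.inertiaSubgroupIn ℚ) : GU A (coeffMap (τ : Kbar →+* Kbar) s) := by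
  obtain ⟨r, hr, h⟩ := hs
  exact ⟨r, hr, red_inertia h hτ⟩

theorem GU.twist (hq : q.Prime) (hA : A.LiesOverPrime q) {s : LaurentSeries Kbar} (hs : GU A s)
    {ζ : Kbar} (hζ : ζ ^ q = 1) (hζ0 : ζ ≠ 0) : GU A (Fermat.Agent.S24.twist ζ hζ0 s) := by
  obtain ⟨r, hr, h⟩ := hs
  exact ⟨r, hr, red_twist hq hA h hζ hζ0⟩

theorem gu_C {c : Kbar} (hc : A.valuation c = 1) : GU A (HahnSeries.C c) := by
  have h1 : c ∈ A := (A.valuation_le_one_iff c).1 hc.le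
  refine ⟨_, ?_, red_C h1⟩
  rw [Ne, map_eq_zero, IsLocalRing.residue_eq_zero_iff, ValuationSubring.valuation_lt_one_iff]
  exact fun h => h.ne hc

/-- descent along `t ↦ t ^ d`. -/
theorem GU.of_qExpand {s : LaurentSeries Kbar} (d : ℕ) [NeZero d] (hs : GU A (qExpand Kbar d s)) :
    GU A s := by
  obtain ⟨r, hr, h, rfl⟩ := hs
  have h1 := mem_gRing_of_qExpand A d h
  refine ⟨_, ?_, h1, rfl⟩
  intro h0
  apply hr
  rw [gRes_qExpand A d h1, h0, map_zero]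

/-- `τ s / s` is a Gauss unit, `τ` in the inertia group. -/
theorem gu_inertia_div (hq : q.Prime) (hA : A.LiesOverPrime q) {s : LaurentSeries Kbar}
    (hs : Normable A s) {τ : Kbar ≃ₐ[ℚ] Kbar} (hτ : τ ∈ A.inertiaSubgroupIn ℚ) :
    GU A (coeffMap (τ : Kbar →+* Kbar) s / s) := by
  obtain ⟨c, hc, r, hr, h⟩ := normable_iff.1 hs
  have h1 : GU A (HahnSeries.C c * s) := ⟨r, hr, h⟩
  have h2 := h1.inertia hτ
  rw [map_mul, coeffMap_C'] at h2
  have h3 := h2.div h1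
  have h4 : GU A (HahnSeries.C (c / τ c)) := by
    apply gu_C
    rw [map_div₀, K0L.inertia_valuation A hq hA hτ c,
      div_self ((Valuation.ne_zero_iff _).2 hc)]
  have h5 := h4.mul h3
  have hτc : (HahnSeries.C (τ c) : LaurentSeries Kbar) ≠ 0 := C_ne_zero' ((map_ne_zero τ).2 hc)
  have hc' : (HahnSeries.C c : LaurentSeries Kbar) ≠ 0 := C_ne_zero' hc
  have e : HahnSeries.C (c / τ c) * (HahnSeries.C ((τ : Kbar →+* Kbar) c) *
      coeffMap (τ : Kbar →+* Kbar) s / (HahnSeries.C c * s)) =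
      coeffMap (τ : Kbar →+* Kbar) s / s := by
    rw [map_div₀]
    have : (HahnSeries.C ((τ : Kbar →+* Kbar) c) : LaurentSeries Kbar) = HahnSeries.C (τ c) := rfl
    rw [this]
    by_cases hs0 : s = 0
    · subst hs0; simp
    · field_simp
  rwa [e] at h5

/-! ### valuations of norms -/

theorem GU.normable {s : LaurentSeries Kbar} (hs : GU A s) : Normable A s := by
  obtain ⟨r, hr, h⟩ := hs
  exact normable_iff.2 ⟨1, one_ne_zero, r, hr, by rwa [map_one, one_mul]⟩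

/-- `C c * τ s` is a Gauss unit if `C c * s` is. -/
theorem GU.const_inertia (hq : q.Prime) (hA : A.LiesOverPrime q) {s : LaurentSeries Kbar} {c : Kbar}
    (hs : GU A (HahnSeries.C c * s)) {τ : Kbar ≃ₐ[ℚ] Kbar} (hτ : τ ∈ A.inertiaSubgroupIn ℚ) :
    GU A (HahnSeries.C c * coeffMap (τ : Kbar →+* Kbar) s) := by
  have hs0 : s ≠ 0 := right_ne_zero_of_mul hs.ne_zero
  have hc0 : c ≠ 0 := by
    rintro rfl
    exact hs.ne_zero (by rw [map_zero, zero_mul])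
  have hn : Normable A s := by
    obtain ⟨r, hr, h⟩ := hs
    exact normable_iff.2 ⟨c, hc0, r, hr, h⟩
  have := hs.mul (gu_inertia_div hq hA hn hτ)
  rwa [mul_assoc, mul_div_cancel₀ _ hs0] at this

/-- **(NVB0)** -/
theorem gu_normAlong_b2 (hq : q.Prime) (hA : A.LiesOverPrime q) {u : FN (M * q * q)} {c : Kbar}
    (h : GU A (HahnSeries.C c * (u : LaurentSeries Kbar))) :
    GU A (HahnSeries.C (c ^ q) * ((normAlong (b2 M q) u : FN (M * q)) : LaurentSeries Kbar)) := by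
  obtain ⟨ζ, hζ⟩ := HasEnoughRootsOfUnity.exists_primitiveRoot Kbar q
  apply GU.of_qExpand q
  rw [map_mul, qExpand_C, qExpand_normAlong_b2 hq hζ u]
  have h3 := GU.prod (A := A) (Finset.univ : Finset (Fin q))
    (fun i => Fermat.Agent.S24.twist (ζ ^ (i : ℕ)) (pow_ne_zero _ (hζ.ne_zero hq.ne_zero))
        (HahnSeries.C c * (u : LaurentSeries Kbar))) (fun i _ =>
      h.twist hq hA (by rw [← pow_mul, mul_comm, pow_mul, hζ.pow_eq_one, one_pow]) _)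
  simp only [map_mul, twist_C] at h3
  rw [Finset.prod_mul_distrib, Finset.prod_const, Finset.card_univ, Fintype.card_fin,
    ← map_pow] at h3
  exact h3

/-- **(NVA0)** -/
theorem gu_normAlong_a2 (hq : q.Prime) (hqM : ¬ q ∣ M) (hA : A.LiesOverPrime q) {ζ : Kbar}
    (hζ : IsPrimitiveRoot ζ q) {ι : FN (M * q * q) →+* LaurentSeries Kbar}
    (hι : IsMid M q ζ (hζ.ne_zero hq.ne_zero) ι) {u : FN (M * q * q)} (hu : IFix A u)
    {c₀ c₁ : Kbar} (h₀ : GU A (HahnSeries.C c₀ * (u : LaurentSeries Kbar)))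
    (h₁ : GU A (HahnSeries.C c₁ * ι u ^ (q - 1))) :
    GU A (HahnSeries.C (c₀ * c₁) *
      ((normAlong (a2 M q) u : FN (M * q)) : LaurentSeries Kbar)) := by
  obtain ⟨ι', h1, h2⟩ := exists_family hq hqM hA hζ hι
  rw [coe_normAlong_a2 hq hqM hζ ι' h1 u, map_mul, mul_mul_mul_comm]
  refine h₀.mul ?_
  have hu0 : u ≠ 0 := by
    rintro rfl
    exact h₀.ne_zero (by simp)
  have hn : Normable A (ι u) := hι.normable hq hA hζ.pow_eq_one u hu0
  have h3 := GU.prod (A := A) (Finset.Ioo 0 q) (fun i => ι' i u / ι u) (fun i hi => by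
    obtain ⟨τ, hτ, e⟩ := h2 i (Finset.mem_Ioo.1 hi).1 (Finset.mem_Ioo.1 hi).2
    show GU A (ι' i u / ι u)
    rw [e, hu.conjMid ι hτ]
    exact gu_inertia_div hq hA hn hτ)
  rw [Finset.prod_div_distrib, Finset.prod_const, Nat.card_Ioo, Nat.sub_zero] at h3
  have h4 := h₁.mul h3
  rwa [mul_assoc, mul_div_cancel₀ _ (pow_ne_zero _ hn.ne_zero)] at h4

/-- **(NVA1)** -/
theorem gu_wq_normAlong_a2 (hq : q.Prime) (hqM : ¬ q ∣ M) (hA : A.LiesOverPrime q)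
    {W : FN (M * q * q) ≃ₐ[Kbar] FN (M * q * q)} (hW : IsW2 M q W) {u : FN (M * q * q)} {c : Kbar}
    (h : GU A (HahnSeries.C c * ((W u : FN (M * q * q)) : LaurentSeries Kbar))) :
    GU A (HahnSeries.C (c ^ q) *
      ((DR.wq M q (normAlong (a2 M q) u) : FN (M * q)) : LaurentSeries Kbar)) := by
  rw [← normAlong_b2_W hq hqM hW]
  exact gu_normAlong_b2 hq hA h

/-- **(NVB1)** -/
theorem gu_wq_normAlong_b2 (hq : q.Prime) (hqM : ¬ q ∣ M) (hA : A.LiesOverPrime q) {ζ : Kbar}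
    (hζ : IsPrimitiveRoot ζ q) {ι : FN (M * q * q) →+* LaurentSeries Kbar}
    (hι : IsMid M q ζ (hζ.ne_zero hq.ne_zero) ι)
    {W : FN (M * q * q) ≃ₐ[Kbar] FN (M * q * q)} (hW : IsW2 M q W)
    {u : FN (M * q * q)} (hu : IFix A u) {c₂ c₁ : Kbar}
    (h₂ : GU A (HahnSeries.C c₂ * ((W u : FN (M * q * q)) : LaurentSeries Kbar)))
    (h₁ : GU A (HahnSeries.C c₁ * ι u ^ (q - 1))) :
    GU A (HahnSeries.C (c₂ * c₁) *
      ((DR.wq M q (normAlong (b2 M q) u) : FN (M * q)) : LaurentSeries Kbar)) := by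
  rw [wq_normAlong_b2 hq hqM hW]
  refine gu_normAlong_a2 hq hqM hA hζ hι (hu.W hq hqM hW) h₂ ?_
  obtain ⟨τ, hτ, e⟩ := mid_W hq hqM hA hζ hι hW
  rw [e u hu, ← map_pow, ← map_pow, ← twist_C ζ (hζ.ne_zero hq.ne_zero) c₁, ← map_mul]
  exact (h₁.const_inertia hq hA hτ).twist hq hA hζ.pow_eq_one _

end Fermat.Agent.S36R.NormC
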