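import Fermat.Agent.S36R.NormC.Setup
import Fermat.Agent.S36R.NormC.SeriesB

/-!
# S36, route R, block NORM-C: the concrete `Lvl` over `K0`

For `S : Setup A M q`:
* `S.al, S.be : S.FA →ₐ[K0 A] S.F` (`heckeAlphaBar`, `heckeBetaBar` over `K0`), `bc0_al`, `bc0_be`;
* `S.NA, S.NB : S.F →* S.FA` : Galois descent of the norms over `Kbar`:
  `bc0_NA : bc0 (S.NA z) = normAlong (a2 M q) (bc0 z)`, `bc0_NB`;
* `S.lvl : Lvl (K0 A) S.F S.FA`.
-/

set_option autoImplicit false
set_option linter.unusedSectionVars false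

noncomputable section

namespace Fermat.Agent.S36R.NormC

open AlgebraicCurve ModularCurve Fermat.Agent.S24 Fermat.Agent.GAL Fermat.Agent.GAL.Gauss
  Fermat.Agent.DR.Conc Fermat.Agent.S36.StepA Fermat.Agent.GAL.NormFormula

variable {A : ValuationSubring Kbar} {M q : ℕ} [NeZero M] [NeZero q] (S : Setup A M q)

theorem iFix_iff {N : ℕ} {u : FN N} : IFix A u ↔ u ∈ Set.range (bc0 A N) :=
  (mem_range_bc0_iff A N u).symm

theorem iFix_bc0 (N : ℕ) (z : FF (K0 A) N) : IFix A (bc0 A N z) := iFix_iff.2 ⟨z, rfl⟩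

theorem IFix.normAlong_a2 {u : FN (M * q * q)} (hu : IFix A u) :
    IFix A (normAlong (a2 M q) u) := by
  intro τ hτ
  have := DR.Hecke.normAlong_alpha_arithmeticRingAut (M * q) q τ u
  rw [gal, ← this]
  exact congrArg _ (hu τ hτ)

theorem normAlong_b2_gal (σ : Kbar ≃ₐ[ℚ] Kbar) (u : FN (M * q * q)) :
    normAlong (b2 M q) (gal (M * q * q) σ u) = gal (M * q) σ (normAlong (b2 M q) u) :=
  DR.Hecke.normAlong_equiv_equiv (b2 M q) (b2 M q) (gal (M * q) σ) (gal (M * q * q) σ)
    (fun x => heckeBetaBar_arithmeticRingAut (M * q) q σ x) u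

theorem IFix.normAlong_b2 {u : FN (M * q * q)} (hu : IFix A u) :
    IFix A (normAlong (b2 M q) u) := by
  intro τ hτ
  rw [← normAlong_b2_gal, hu τ hτ]

namespace Setup

/-- `α` over `K0`. -/
def al : S.FA →ₐ[K0 A] S.F := heckeAlphaBar (K0 A) (M * q) q

/-- `β` over `K0`. -/
def be : S.FA →ₐ[K0 A] S.F := heckeBetaBar (K0 A) (M * q) q

theorem coe_al (x : S.FA) : ((S.al x : S.F) : LaurentSeries (K0 A)) = (x : LaurentSeries (K0 A)) :=
  coe_heckeAlphaBar (L := K0 A) (M * q) q x

theorem coe_be (x : S.FA) :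
    ((S.be x : S.F) : LaurentSeries (K0 A)) = qExpand (K0 A) q (x : LaurentSeries (K0 A)) :=
  coe_heckeBetaBar (L := K0 A) (M * q) q x

theorem bc0_al (x : S.FA) : bc0 A (M * q * q) (S.al x) = a2 M q (bc0 A (M * q) x) := by
  apply Subtype.ext
  rw [coe_bc0, a2, coe_heckeAlphaBar, coe_bc0, coe_al]

theorem bc0_be (x : S.FA) : bc0 A (M * q * q) (S.be x) = b2 M q (bc0 A (M * q) x) := by
  apply Subtype.ext
  rw [coe_bc0, b2, coe_heckeBetaBar, coe_bc0, coe_be, coeffMap_qExpand]

theorem exists_NA (z : S.F) :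
    ∃ w : S.FA, bc0 A (M * q) w = normAlong (a2 M q) (bc0 A (M * q * q) z) :=
  iFix_iff.1 (iFix_bc0 _ z).normAlong_a2

theorem exists_NB (z : S.F) :
    ∃ w : S.FA, bc0 A (M * q) w = normAlong (b2 M q) (bc0 A (M * q * q) z) :=
  iFix_iff.1 (iFix_bc0 _ z).normAlong_b2

/-- The norm along `α`, over `K0`. -/
def NA : S.F →* S.FA where
  toFun z := (S.exists_NA z).choose
  map_one' := bc0_injective A _ (by rw [(S.exists_NA 1).choose_spec, map_one, map_one, map_one])
  map_mul' x y := bc0_injective A _ (by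
    rw [(S.exists_NA (x * y)).choose_spec, map_mul, map_mul, map_mul, (S.exists_NA x).choose_spec,
      (S.exists_NA y).choose_spec])

/-- The norm along `β`, over `K0`. -/
def NB : S.F →* S.FA where
  toFun z := (S.exists_NB z).choose
  map_one' := bc0_injective A _ (by rw [(S.exists_NB 1).choose_spec, map_one, map_one, map_one])
  map_mul' x y := bc0_injective A _ (by
    rw [(S.exists_NB (x * y)).choose_spec, map_mul, map_mul, map_mul, (S.exists_NB x).choose_spec,
      (S.exists_NB y).choose_spec])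

theorem bc0_NA (z : S.F) :
    bc0 A (M * q) (S.NA z) = normAlong (a2 M q) (bc0 A (M * q * q) z) :=
  (S.exists_NA z).choose_spec

theorem bc0_NB (z : S.F) :
    bc0 A (M * q) (S.NB z) = normAlong (b2 M q) (bc0 A (M * q * q) z) :=
  (S.exists_NB z).choose_spec

/-- **The concrete data of route R.** -/
def lvl : Lvl (K0 A) S.F S.FA where
  al := S.al
  be := S.be
  NA := S.NA
  NB := S.NB
  W := S.W
  V := S.V

end Setup

end Fermat.Agent.S36R.NormC
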