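import Fermat.Agent.S36R.NormC.IntAbs
import Fermat.Agent.S36R.NormC.Lvl
import Fermat.Agent.S36R.Bridge.Main
import Fermat.Agent.DR.Conc.Coord

/-!
# S36, route R, block NORM-C: `TripleOK.intA`, `TripleOK.intB` for the chart
`R₀ = Bridge.RR (O0 A) j`, `j = Tors.Dict.jF (K0 A) (M q q)`.
-/

set_option autoImplicit false
set_option linter.unusedSectionVars false

noncomputable section

namespace Fermat.Agent.S36R.NormC

open AlgebraicCurve ModularCurve Fermat.Agent.S24 Fermat.Agent.GAL Fermat.Agent.S36.StepA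
  Fermat.Agent.S36R.Bridge Fermat.Agent.DR.Conc

variable {A : ValuationSubring Kbar} {M q : ℕ} [NeZero M] [NeZero q] (S : Setup A M q)

namespace Setup

/-- `j(t)`, level `M q q`. -/
abbrev j : S.F := Tors.Dict.jF (K0 A) (M * q * q)

/-- `j(t)`, level `M q`. -/
abbrev jA : S.FA := Tors.Dict.jF (K0 A) (M * q)

theorem al_jA : S.al S.jA = S.j := Subtype.ext (S.coe_al _)

theorem al_algebraMap_O0 (a : O0 A) :
    S.al (algebraMap (O0 A) S.FA a) = algebraMap (O0 A) S.F a :=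
  S.al.commutes (a : K0 A)

theorem be_algebraMap_O0 (a : O0 A) :
    S.be (algebraMap (O0 A) S.FA a) = algebraMap (O0 A) S.F a :=
  S.be.commutes (a : K0 A)

/-- **`TripleOK.intA`.** -/
theorem intA (s : S.F) (hs : s ∈ RR (O0 A) S.j) : S.lvl.al (S.lvl.NA s) ∈ RR (O0 A) S.j := by
  have h := int_abs (O := O0 A) (a2 M q) (Hecke.finiteAlong_alpha (M * q) q)
    (S.al : S.FA →+* S.F) S.al_algebraMap_O0 (bc0 A (M * q)) (bc0 A (M * q * q)) S.bc0_al
    S.NA S.bc0_NA S.jA (s := s)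
  rw [RingHom.coe_coe, al_jA] at h
  exact h hs

theorem bc0_j : bc0 A (M * q * q) S.j = a2 M q (jN M q) := by
  apply Subtype.ext
  rw [a2, coe_heckeAlphaBar, coe_jN, coe_bc0, Bridge.coe_jF, coeffMap_jqModC]

theorem bc0_be_jA : bc0 A (M * q * q) (S.be S.jA) = a2 M q (jqN M q) := by
  apply Subtype.ext
  rw [a2, coe_heckeAlphaBar, coe_jqN, coe_bc0, coe_be, Bridge.coe_jF, coeffMap_qExpand,
    coeffMap_jqModC]

/-- the modular equation, both ways. -/
theorem exists_Phi : ∃ Φ : Polynomial (Polynomial ℤ), Φ.Monic ∧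
    (Φ.map (S28.evY S.j)).eval (S.be S.jA) = 0 ∧ (Φ.map (S28.evY (S.be S.jA))).eval S.j = 0 := by
  obtain ⟨Φ, hΦ, h⟩ := Coord_Phi M q S.hq
  refine ⟨Φ, hΦ, ?_, ?_⟩
  · apply bc0_injective A
    rw [S28.map_eval_evY, bc0_j, bc0_be_jA, map_zero]
    have := S28.map_eval_evY ((a2 M q : FN (M * q) →ₐ[Kbar] FN (M * q * q)) :
      FN (M * q) →+* FN (M * q * q)) (jN M q) (jqN M q) Φ
    rw [h, map_zero] at this
    exact this.symm
  · have h2 := S28.map_eval_evY ((DR.Conc.W M q S.hq S.hqM : FN (M * q) ≃ₐ[Kbar] FN (M * q)) :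
      FN (M * q) →+* FN (M * q)) (jN M q) (jqN M q) Φ
    rw [h, map_zero] at h2
    have e1 : ((DR.Conc.W M q S.hq S.hqM : FN (M * q) ≃ₐ[Kbar] FN (M * q)) :
      FN (M * q) →+* FN (M * q)) (jN M q) = jqN M q := W_jN M q S.hq S.hqM
    have e2 : ((DR.Conc.W M q S.hq S.hqM : FN (M * q) ≃ₐ[Kbar] FN (M * q)) :
      FN (M * q) →+* FN (M * q)) (jqN M q) = jN M q := W_jqN M q S.hq S.hqM
    rw [e1, e2] at h2
    apply bc0_injective A
    rw [S28.map_eval_evY, bc0_j, bc0_be_jA, map_zero]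
    have := S28.map_eval_evY ((a2 M q : FN (M * q) →ₐ[Kbar] FN (M * q * q)) :
      FN (M * q) →+* FN (M * q * q)) (jqN M q) (jN M q) Φ
    rw [← h2, map_zero] at this
    exact this.symm

theorem RR_j_eq : RR (O0 A) S.j = RR (O0 A) (S.be S.jA) := by
  obtain ⟨Φ, hΦ, h1, h2⟩ := S.exists_Phi
  apply le_antisymm
  · exact RR_le_of_mem (mem_RR.2 (S28.isIntegral_of_evY Φ hΦ _ _ (mem_RR.1 (self_mem_RR _)) h2))
  · exact RR_le_of_mem (mem_RR.2 (S28.isIntegral_of_evY Φ hΦ _ _ (mem_RR.1 (self_mem_RR _)) h1))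

/-- **`TripleOK.intB`.** -/
theorem intB (s : S.F) (hs : s ∈ RR (O0 A) S.j) : S.lvl.be (S.lvl.NB s) ∈ RR (O0 A) S.j := by
  have h := int_abs (O := O0 A) (b2 M q) (Hecke.finiteAlong_beta (M * q) q)
    (S.be : S.FA →+* S.F) S.be_algebraMap_O0 (bc0 A (M * q)) (bc0 A (M * q * q)) S.bc0_be
    S.NB S.bc0_NB S.jA (s := s)
  rw [RingHom.coe_coe, ← RR_j_eq] at h
  exact h hs

end Setup

end Fermat.Agent.S36R.NormC
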