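import Fermat.Agent.S36R.NormC.Vals
import Fermat.Agent.S36.StepA.Defs

/-!
# S36, route R: the concrete data at level `M q²` over `K0`

`Setup A M q` bundles `q` prime, `q ∤ M`, `A` over `q`, a primitive `q`-th root of unity `ζ`,
`W = w_{q²}` (`IsW2`), a middle expansion `ι = ι_ζ` (`IsMid`).  For `S : Setup A M q`:
* `S.e0, S.e1, S.e2 : FF K0 (M q q) →+* Kbar((t))` the expansions at `∞`, at the middle cusp, at `0`;
* `S.d0, S.d1 : FF K0 (M q) →+* Kbar((t))` the expansions at `∞`, `0`;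
* `S.W i = gVS A (S.e i)`, `S.V i = gVS A (S.d i)`.
-/

set_option autoImplicit false
set_option linter.unusedSectionVars false

noncomputable section

namespace Fermat.Agent.S36R.NormC

open AlgebraicCurve ModularCurve Fermat.Agent.S24 Fermat.Agent.GAL Fermat.Agent.GAL.Gauss
  Fermat.Agent.DR.Conc Fermat.Agent.S36.StepA Fermat.Agent.GAL.NormFormula

/-- The data of level `M q²`. -/
structure Setup (A : ValuationSubring Kbar) (M q : ℕ) [NeZero M] [NeZero q] where
  hq : q.Prime
  hqM : ¬ q ∣ M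
  hA : A.LiesOverPrime q
  /-- a primitive `q`-th root of unity -/
  ζ : Kbar
  hζ : IsPrimitiveRoot ζ q
  /-- `w_{q²}` -/
  W2 : FN (M * q * q) ≃ₐ[Kbar] FN (M * q * q)
  hW2 : IsW2 M q W2
  /-- the expansion at the middle cusp -/
  ι : FN (M * q * q) →+* LaurentSeries Kbar
  hι : IsMid M q ζ (hζ.ne_zero hq.ne_zero) ι

variable {A : ValuationSubring Kbar} {M q : ℕ} [NeZero M] [NeZero q] (S : Setup A M q)

namespace Setup

/-- the function field of level `M q²` over `K0`. -/
abbrev F (_ : Setup A M q) : Type := ↥(FF (K0 A) (M * q * q))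

/-- the function field of level `M q` over `K0`. -/
abbrev FA (_ : Setup A M q) : Type := ↥(FF (K0 A) (M * q))

/-- expansion at `∞`. -/
def e0 : S.F →+* LaurentSeries Kbar := (valN (M * q * q)).comp (bc0 A (M * q * q))

/-- expansion at the middle cusp. -/
def e1 : S.F →+* LaurentSeries Kbar := S.ι.comp (bc0 A (M * q * q))

/-- expansion at `0`. -/
def e2 : S.F →+* LaurentSeries Kbar :=
  (valN (M * q * q)).comp ((S.W2 : FN (M * q * q) →+* FN (M * q * q)).comp (bc0 A (M * q * q)))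

/-- expansion at `∞`, level `M q`. -/
def d0 : S.FA →+* LaurentSeries Kbar := (valN (M * q)).comp (bc0 A (M * q))

/-- expansion at `0`, level `M q`. -/
def d1 : S.FA →+* LaurentSeries Kbar :=
  (valN (M * q)).comp ((DR.wq M q : FN (M * q) →+* FN (M * q)).comp (bc0 A (M * q)))

theorem e0_apply (z : S.F) : S.e0 z = ((bc0 A (M * q * q) z : FN (M * q * q)) : LaurentSeries Kbar) :=
  rfl

theorem e1_apply (z : S.F) : S.e1 z = S.ι (bc0 A (M * q * q) z) := rfl

theorem e2_apply (z : S.F) :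
    S.e2 z = ((S.W2 (bc0 A (M * q * q) z) : FN (M * q * q)) : LaurentSeries Kbar) := rfl

theorem d0_apply (x : S.FA) : S.d0 x = ((bc0 A (M * q) x : FN (M * q)) : LaurentSeries Kbar) := rfl

theorem d1_apply (x : S.FA) :
    S.d1 x = ((DR.wq M q (bc0 A (M * q) x) : FN (M * q)) : LaurentSeries Kbar) := rfl

theorem normable_e0 (z : S.F) (hz : z ≠ 0) : Normable A (S.e0 z) :=
  normable_coe S.hq S.hA _ ((map_ne_zero _).2 hz)

theorem normable_e1 (z : S.F) (hz : z ≠ 0) : Normable A (S.e1 z) :=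
  S.hι.normable S.hq S.hA S.hζ.pow_eq_one _ ((map_ne_zero _).2 hz)

theorem normable_e2 (z : S.F) (hz : z ≠ 0) : Normable A (S.e2 z) :=
  normable_coe S.hq S.hA _ ((map_ne_zero _).2 hz)

theorem normable_d0 (x : S.FA) (hx : x ≠ 0) : Normable A (S.d0 x) :=
  normable_coe S.hq S.hA _ ((map_ne_zero _).2 hx)

theorem normable_d1 (x : S.FA) (hx : x ≠ 0) : Normable A (S.d1 x) :=
  normable_coe S.hq S.hA _ ((map_ne_zero _).2 hx)

/-- `W20`. -/
def W20 : ValuationSubring S.F := gVS A S.e0 S.normable_e0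

/-- `W11`. -/
def W11 : ValuationSubring S.F := gVS A S.e1 S.normable_e1

/-- `W02`. -/
def W02 : ValuationSubring S.F := gVS A S.e2 S.normable_e2

/-- `V10`. -/
def V10 : ValuationSubring S.FA := gVS A S.d0 S.normable_d0

/-- `V01`. -/
def V01 : ValuationSubring S.FA := gVS A S.d1 S.normable_d1

/-- `W20, W11, W02`. -/
def W : Fin 3 → ValuationSubring S.F := ![S.W20, S.W11, S.W02]

/-- `V10, V01`. -/
def V : Fin 2 → ValuationSubring S.FA := ![S.V10, S.V01]

@[simp] theorem W_zero : S.W 0 = S.W20 := rfl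
@[simp] theorem W_one : S.W 1 = S.W11 := rfl
@[simp] theorem W_two : S.W 2 = S.W02 := rfl
@[simp] theorem V_zero : S.V 0 = S.V10 := rfl
@[simp] theorem V_one : S.V 1 = S.V01 := rfl

end Setup

end Fermat.Agent.S36R.NormC
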