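import Fermat.Agent.S36R.K0.Defs

/-!
# S36, route R, block NORM-C, leaf CP: `K0ˣ = q^ℤ * (K0ˣ)^n` for `n` prime to `q`; small facts on `O0`
-/

set_option autoImplicit false

namespace Fermat.Agent.S36R.NormC

open Fermat.Agent.S24 Fermat.Agent.GAL

variable (A : ValuationSubring Kbar) {q : ℕ} (hq : q.Prime) (hA : A.LiesOverPrime q)

include hq hA

/-- **Leaf CP1.** A unit of `A` lying in `K0` is an `n`-th power in `K0` (`q ∤ n`).
PROOF. `v ∈ Kbar` with `v ^ n = u` (`IsAlgClosed.exists_pow_nat_eq`), `A.valuation v = 1`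
(`pow_eq_one_iff_of_nonneg`), so `v ∈ A`. For `τ ∈ I` (`mem_K0`): `ξ := τ v / v` satisfies `ξ ^ n = 1`
(`τ u = u`), and `A.valuation (ξ - 1) < 1` because `τ v - v ∈ A.nonunits`
(`K0L.inertia_sub_mem_nonunits A hq hA hτ`) and `v` is a unit. Conclude `ξ = 1` with
`Fermat.Agent.PT.Local.eq_of_v_sub_lt_one ⟨A, q, hq, hA⟩ hn` (as in `K0L.root_mem_K0`, file
`K0/BlockL.lean`; `P.v` is `A.valuation` by `rfl`). -/
theorem exists_pow_eq_of_unit {n : ℕ} (hn : ¬ q ∣ n) (u : K0 A)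
    (hu : A.valuation (u : Kbar) = 1) : ∃ b : K0 A, b ≠ 0 ∧ u = b ^ n := by
  have hn0 : n ≠ 0 := by rintro rfl; exact hn (dvd_zero _)
  obtain ⟨v, hv⟩ := IsAlgClosed.exists_pow_nat_eq (u : Kbar) (Nat.pos_of_ne_zero hn0)
  have hv1 : A.valuation v = 1 := by
    have h1 : A.valuation v ^ n = 1 := by rw [← map_pow, hv, hu]
    exact (pow_eq_one_iff_of_nonneg zero_le hn0).1 h1
  have hvA : v ∈ A := (A.valuation_le_one_iff v).1 hv1.le
  have hv0 : v ≠ 0 := by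
    rintro rfl
    simp at hv1
  have hvK : v ∈ K0 A := by
    rw [mem_K0]
    intro τ hτ
    have hτu : τ (u : Kbar) = u := mem_K0.1 u.2 τ hτ
    have h1 : (τ v / v) ^ n = 1 := by
      rw [div_pow, ← map_pow, hv, hτu, div_self]
      rw [← hv]
      exact pow_ne_zero _ hv0
    have h2 : A.valuation (τ v / v - 1) < 1 := by
      have h3 : τ v / v - 1 = (τ v - v) / v := by field_simp
      rw [h3, map_div₀, hv1, div_one]
      exact (ValuationSubring.mem_nonunits_iff A).1 (K0L.inertia_sub_mem_nonunits A hq hA hτ hvA)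
    have h4 : τ v / v = 1 :=
      Fermat.Agent.PT.Local.eq_of_v_sub_lt_one ⟨A, q, hq, hA⟩ hn h1 (one_pow n) h2
    rwa [div_eq_one_iff_eq hv0] at h4
  refine ⟨⟨v, hvK⟩, fun h => hv0 (congrArg Subtype.val h), Subtype.ext ?_⟩
  exact hv.symm

/-- **Leaf CP2.** (`K0L.exists_zpow'` + CP1 applied to `a / q ^ x`.) -/
theorem exists_q_zpow_mul_pow {n : ℕ} (hn : ¬ q ∣ n) (a : K0 A) (ha : a ≠ 0) :
    ∃ (x : ℤ) (b : K0 A), b ≠ 0 ∧ a = (q : K0 A) ^ x * b ^ n := by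
  have ha0 : (a : Kbar) ≠ 0 := fun h => ha (Subtype.ext h)
  obtain ⟨x, hx⟩ := K0L.exists_zpow' A hq hA a.2 ha0
  have hq0 : (q : K0 A) ≠ 0 := by exact_mod_cast hq.ne_zero
  have hq0' : (q : Kbar) ≠ 0 := by exact_mod_cast hq.ne_zero
  have hvq : A.valuation (q : Kbar) ≠ 0 := (Valuation.ne_zero_iff _).2 hq0'
  obtain ⟨b, hb, hab⟩ := exists_pow_eq_of_unit A hq hA hn (a / (q : K0 A) ^ x) (by
    have h1 : ((a / (q : K0 A) ^ x : K0 A) : Kbar) = (a : Kbar) / (q : Kbar) ^ x := by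
      push_cast
      rfl
    rw [h1, map_div₀, map_zpow₀, hx, div_self (zpow_ne_zero _ hvq)])
  refine ⟨x, b, hb, ?_⟩
  rw [← hab]
  field_simp

/-- **Leaf CP3.** (`K0L.exists_zpow'`: `v a = v q ^ x`; take `k = (-x).toNat`.) -/
theorem exists_q_pow_mul_mem (a : K0 A) :
    ∃ (k : ℕ) (u : O0 A), (q : K0 A) ^ k * a = algebraMap (O0 A) (K0 A) u := by
  by_cases ha : a = 0
  · exact ⟨0, 0, by rw [ha]; simp⟩
  have ha0 : (a : Kbar) ≠ 0 := fun h => ha (Subtype.ext h)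
  obtain ⟨x, hx⟩ := K0L.exists_zpow' A hq hA a.2 ha0
  have hq0' : (q : Kbar) ≠ 0 := by exact_mod_cast hq.ne_zero
  have hvq : A.valuation (q : Kbar) ≠ 0 := (Valuation.ne_zero_iff _).2 hq0'
  have hvq1 : A.valuation (q : Kbar) ≤ 1 := (A.valuation_le_one_iff _).2 (natCast_mem A q)
  refine ⟨(-x).toNat, ⟨(q : K0 A) ^ (-x).toNat * a, ?_⟩, rfl⟩
  rw [mem_O0]
  have h1 : (((q : K0 A) ^ (-x).toNat * a : K0 A) : Kbar) = (q : Kbar) ^ (-x).toNat * (a : Kbar) := by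
    push_cast
    rfl
  rw [h1, ← A.valuation_le_one_iff, map_mul, map_pow, hx, ← zpow_natCast, ← zpow_add₀ hvq]
  obtain ⟨m, hm⟩ : ∃ m : ℕ, ((-x).toNat : ℤ) + x = m := ⟨(((-x).toNat : ℤ) + x).toNat, by omega⟩
  rw [hm, zpow_natCast]
  exact pow_le_one₀ zero_le hvq1

/-- **Leaf CP4.** `O0` contains a primitive `n`-th root of unity (`q ∤ n`).
(`HasEnoughRootsOfUnity.exists_primitiveRoot Kbar n` (needs `NeZero n`), `K0L.root_mem_K0 ⟨A, q, hq, hA⟩ hn`;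
a root of unity lies in `A`: `Fermat.Agent.DR.Conc.Normalise_zeta_mem` or directly
`A.mem_or_inv_mem`; `IsPrimitiveRoot.of_map_of_injective`.) -/
theorem exists_primitiveRoot_O0 {n : ℕ} (hn : ¬ q ∣ n) : ∃ ζ : O0 A, IsPrimitiveRoot ζ n := by
  have hn0 : n ≠ 0 := by rintro rfl; exact hn (dvd_zero _)
  have : NeZero n := ⟨hn0⟩
  obtain ⟨ζ, hζ⟩ := HasEnoughRootsOfUnity.exists_primitiveRoot Kbar n
  have hK : ζ ∈ K0 A := K0L.root_mem_K0 ⟨A, q, hq, hA⟩ hn hζ.pow_eq_one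
  have hv1 : A.valuation ζ = 1 := by
    have h1 : A.valuation ζ ^ n = 1 := by rw [← map_pow, hζ.pow_eq_one, map_one]
    exact (pow_eq_one_iff_of_nonneg zero_le hn0).1 h1
  have hA' : ζ ∈ A := (A.valuation_le_one_iff ζ).1 hv1.le
  refine ⟨⟨⟨ζ, hK⟩, hA'⟩, ?_⟩
  have hinj : Function.Injective (((algebraMap (K0 A) Kbar).comp (O0 A).subtype)) :=
    (algebraMap (K0 A) Kbar).injective.comp Subtype.val_injective
  exact IsPrimitiveRoot.of_map_of_injective (f := ((algebraMap (K0 A) Kbar).comp (O0 A).subtype))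
    (hf := hinj) hζ

/-- **Leaf CP5.** `n` is a unit of `O0` (`q ∤ n`).
(`K0L.isUnit_OI_iff`, `K0L.v_intCast_eq_one` for `P = ⟨A, q, hq, hA⟩`.) -/
theorem isUnit_natCast_O0 {n : ℕ} (hn : ¬ q ∣ n) : IsUnit (n : O0 A) := by
  rw [K0L.isUnit_OI_iff]
  have h1 := K0L.v_intCast_eq_one ⟨A, q, hq, hA⟩ (a := (n : ℤ)) (by exact_mod_cast hn)
  simpa using h1

end Fermat.Agent.S36R.NormC
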