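import Fermat.Agent.S36R.NormC.Lvl

/-!
# S36, route R, block NORM-C: the fields of `Lvl.Good` delivered by NORM-C, for `S.lvl`
-/

set_option autoImplicit false
set_option linter.unusedSectionVars false

noncomputable section

namespace Fermat.Agent.S36R.NormC

open AlgebraicCurve ModularCurve Fermat.Agent.S24 Fermat.Agent.GAL Fermat.Agent.GAL.Gauss
  Fermat.Agent.DR.Conc Fermat.Agent.S36.StepA Fermat.Agent.GAL.NormFormula

variable {A : ValuationSubring Kbar} {M q : ℕ} [NeZero M] [NeZero q] (S : Setup A M q)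

namespace Setup

/-! ### the expansions of `α x`, `β x` -/

theorem e0_al (x : S.FA) : S.e0 (S.al x) = S.d0 x := by
  rw [e0_apply, bc0_al, a2, coe_heckeAlphaBar, d0_apply]

theorem e1_al (x : S.FA) : S.e1 (S.al x) = S.d0 x := by
  rw [e1_apply, bc0_al, S.hι.alpha, d0_apply]

theorem e2_al (x : S.FA) : S.e2 (S.al x) = qExpand Kbar q (S.d1 x) := by
  rw [e2_apply, bc0_al, S.hW2.alpha, b2, coe_heckeBetaBar, d1_apply]

theorem e0_be (x : S.FA) : S.e0 (S.be x) = qExpand Kbar q (S.d0 x) := by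
  rw [e0_apply, bc0_be, b2, coe_heckeBetaBar, d0_apply]

theorem e1_be (x : S.FA) :
    S.e1 (S.be x) = Fermat.Agent.S24.twist S.ζ (S.hζ.ne_zero S.hq.ne_zero) (S.d1 x) := by
  rw [e1_apply, bc0_be, S.hι.beta, d1_apply]

theorem e2_be (x : S.FA) : S.e2 (S.be x) = S.d1 x := by
  rw [e2_apply, bc0_be, S.hW2.beta, a2, coe_heckeAlphaBar, d1_apply]

theorem d0_NA (z : S.F) :
    S.d0 (S.NA z) = ((normAlong (a2 M q) (bc0 A (M * q * q) z) : FN (M * q)) : LaurentSeries Kbar) := by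
  rw [d0_apply, bc0_NA]

theorem d1_NA (z : S.F) : S.d1 (S.NA z) =
    ((DR.wq M q (normAlong (a2 M q) (bc0 A (M * q * q) z)) : FN (M * q)) : LaurentSeries Kbar) := by
  rw [d1_apply, bc0_NA]

theorem d0_NB (z : S.F) :
    S.d0 (S.NB z) = ((normAlong (b2 M q) (bc0 A (M * q * q) z) : FN (M * q)) : LaurentSeries Kbar) := by
  rw [d0_apply, bc0_NB]

theorem d1_NB (z : S.F) : S.d1 (S.NB z) =
    ((DR.wq M q (normAlong (b2 M q) (bc0 A (M * q * q) z)) : FN (M * q)) : LaurentSeries Kbar) := by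
  rw [d1_apply, bc0_NB]

theorem qExpand_mem_iff {s : LaurentSeries Kbar} : qExpand Kbar q s ∈ gRing A ↔ s ∈ gRing A :=
  ⟨mem_gRing_of_qExpand A q, qExpand_mem_gRing A q⟩

theorem twist_mem_iff {s : LaurentSeries Kbar} :
    Fermat.Agent.S24.twist S.ζ (S.hζ.ne_zero S.hq.ne_zero) s ∈ gRing A ↔ s ∈ gRing A := by
  have hζ0 := S.hζ.ne_zero S.hq.ne_zero
  obtain ⟨h1, h2⟩ := Normalise_zeta_mem A S.hq.pos S.hζ.pow_eq_one
  constructor
  · intro h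
    have := twist_mem_gRing A (inv_ne_zero hζ0) h2 (by rwa [inv_inv]) h
    rwa [twist_twist_inv] at this
  · exact twist_mem_gRing A hζ0 h1 h2

/-! ### comaps -/

theorem al0 : (S.lvl.W 0).comap (S.lvl.al : S.FA →+* S.F) = S.lvl.V 0 :=
  gVS_comap (h := S.normable_e0) _ _ S.normable_d0 fun y => by
    show S.e0 (S.al y) ∈ gRing A ↔ _
    rw [e0_al]

theorem al1 : (S.lvl.W 1).comap (S.lvl.al : S.FA →+* S.F) = S.lvl.V 0 :=
  gVS_comap (h := S.normable_e1) _ _ S.normable_d0 fun y => by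
    show S.e1 (S.al y) ∈ gRing A ↔ _
    rw [e1_al]

theorem al2 : (S.lvl.W 2).comap (S.lvl.al : S.FA →+* S.F) = S.lvl.V 1 :=
  gVS_comap (h := S.normable_e2) _ _ S.normable_d1 fun y => by
    show S.e2 (S.al y) ∈ gRing A ↔ _
    rw [e2_al, qExpand_mem_iff]

theorem be0 : (S.lvl.W 0).comap (S.lvl.be : S.FA →+* S.F) = S.lvl.V 0 :=
  gVS_comap (h := S.normable_e0) _ _ S.normable_d0 fun y => by
    show S.e0 (S.be y) ∈ gRing A ↔ _
    rw [e0_be, qExpand_mem_iff]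

theorem be1 : (S.lvl.W 1).comap (S.lvl.be : S.FA →+* S.F) = S.lvl.V 1 :=
  gVS_comap (h := S.normable_e1) _ _ S.normable_d1 fun y => by
    show S.e1 (S.be y) ∈ gRing A ↔ _
    rw [e1_be, S.twist_mem_iff]

theorem be2 : (S.lvl.W 2).comap (S.lvl.be : S.FA →+* S.F) = S.lvl.V 1 :=
  gVS_comap (h := S.normable_e2) _ _ S.normable_d1 fun y => by
    show S.e2 (S.be y) ∈ gRing A ↔ _
    rw [e2_be]

/-! ### reduction of norms -/

theorem NRA1 (z : S.F) (w₁ w₂ : S.FA) (h0 : z ∈ S.lvl.W 0) (h1 : z ∈ S.lvl.W 1)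
    (c0 : Cg (S.lvl.W 0) z (S.lvl.al w₁)) (c1 : Cg (S.lvl.W 1) z (S.lvl.al w₂)) :
    Cg (S.lvl.V 0) (S.lvl.NA z) (w₁ * w₂ ^ (q - 1)) := by
  obtain ⟨r₀, hr₀⟩ := exists_red_of_mem (h := S.normable_e0) h0
  obtain ⟨r₁, hr₁⟩ := exists_red_of_mem (h := S.normable_e1) h1
  have a0 : Red A (S.e0 (S.al w₁)) r₀ := red_of_cg (h := S.normable_e0) c0 hr₀
  have a1 : Red A (S.e1 (S.al w₂)) r₁ := red_of_cg (h := S.normable_e1) c1 hr₁
  rw [e0_al] at a0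
  rw [e1_al] at a1
  refine cg_of_red (h := S.normable_d0) (r := r₀ * r₁ ^ (q - 1)) ?_ ?_
  · show Red A (S.d0 (S.NA z)) _
    rw [d0_NA]
    exact red_normAlong_a2 S.hq S.hqM S.hA S.hζ S.hι (iFix_bc0 _ z) hr₀ hr₁
  · rw [map_mul, map_pow]
    exact a0.mul (a1.pow _)

theorem NRA2 (z : S.F) (h2 : z ∈ S.lvl.W 2) :
    Cg (S.lvl.W 2) (S.lvl.al (S.lvl.NA z)) (z ^ q) := by
  obtain ⟨r, hr⟩ := exists_red_of_mem (h := S.normable_e2) h2
  refine cg_of_red (h := S.normable_e2) (r := r ^ q) ?_ ?_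
  · show Red A (S.e2 (S.al (S.NA z))) _
    rw [e2_apply, bc0_al, bc0_NA]
    exact red_W_a2_normAlong_a2 S.hq S.hqM S.hA S.hW2 hr
  · rw [map_pow]
    exact hr.pow q

theorem NRB1 (z : S.F) (w₁ w₂ : S.FA) (h2 : z ∈ S.lvl.W 2) (h1 : z ∈ S.lvl.W 1)
    (c2 : Cg (S.lvl.W 2) z (S.lvl.be w₁)) (c1 : Cg (S.lvl.W 1) z (S.lvl.be w₂)) :
    Cg (S.lvl.V 1) (S.lvl.NB z) (w₁ * w₂ ^ (q - 1)) := by
  obtain ⟨r₂, hr₂⟩ := exists_red_of_mem (h := S.normable_e2) h2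
  obtain ⟨r₁, hr₁⟩ := exists_red_of_mem (h := S.normable_e1) h1
  have a2' : Red A (S.e2 (S.be w₁)) r₂ := red_of_cg (h := S.normable_e2) c2 hr₂
  have a1 : Red A (S.e1 (S.be w₂)) r₁ := red_of_cg (h := S.normable_e1) c1 hr₁
  rw [e2_be] at a2'
  rw [e1_be] at a1
  have hζ0 := S.hζ.ne_zero S.hq.ne_zero
  have a1' := red_twist S.hq S.hA a1 (ζ := S.ζ⁻¹) (by rw [inv_pow, S.hζ.pow_eq_one, inv_one])
    (inv_ne_zero hζ0)
  rw [twist_twist_inv] at a1'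
  refine cg_of_red (h := S.normable_d1) (r := r₂ * r₁ ^ (q - 1)) ?_ ?_
  · show Red A (S.d1 (S.NB z)) _
    rw [d1_NB]
    exact red_wq_normAlong_b2 S.hq S.hqM S.hA S.hζ S.hι S.hW2 (iFix_bc0 _ z) hr₂ hr₁
  · rw [map_mul, map_pow]
    exact a2'.mul (a1'.pow _)

theorem NRB2 (z : S.F) (h0 : z ∈ S.lvl.W 0) :
    Cg (S.lvl.W 0) (S.lvl.be (S.lvl.NB z)) (z ^ q) := by
  obtain ⟨r, hr⟩ := exists_red_of_mem (h := S.normable_e0) h0
  refine cg_of_red (h := S.normable_e0) (r := r ^ q) ?_ ?_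
  · show Red A (S.e0 (S.be (S.NB z))) _
    rw [e0_be, d0_NB]
    exact red_qExpand_normAlong_b2 S.hq S.hA hr
  · rw [map_pow]
    exact hr.pow q

/-! ### norms of constants -/

theorem normAlong_apply_self {K F F' : Type*} [Field K] [Field F] [Field F'] [Algebra K F]
    [Algebra K F'] (φ : F →ₐ[K] F') (x : F) : normAlong φ (φ x) = x ^ finrankAlong K φ := by
  let _ := algebraAlong φ
  exact Algebra.norm_algebraMap (S := F') x

theorem NA_const (a : K0 A) :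
    S.lvl.NA (algebraMap (K0 A) S.F a) = algebraMap (K0 A) S.FA (a ^ q) := by
  apply bc0_injective A
  show bc0 A (M * q) (S.NA _) = _
  rw [bc0_NA, bc0_algebraMap, bc0_algebraMap, ← (a2 M q).commutes, normAlong_apply_self,
    finrankAlong_a2 S.hq, ← map_pow]
  rfl

theorem NB_const (a : K0 A) :
    S.lvl.NB (algebraMap (K0 A) S.F a) = algebraMap (K0 A) S.FA (a ^ q) := by
  apply bc0_injective A
  show bc0 A (M * q) (S.NB _) = _
  rw [bc0_NB, bc0_algebraMap, bc0_algebraMap, ← (b2 M q).commutes, normAlong_apply_self,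
    finrankAlong_b2 S.hq, ← map_pow]
  rfl

/-! ### valuations of norms -/

theorem map_div_q {F : Type*} [Field F] (φ : F →+* LaurentSeries Kbar) (z : F) (x : ℤ) :
    φ (z / (q : F) ^ x) = HahnSeries.C (((q : Kbar) ^ x)⁻¹) * φ z := by
  rw [map_div₀, map_zpow₀, map_natCast, map_inv₀, map_zpow₀, map_natCast, div_eq_mul_inv, mul_comm]

theorem NVA0 (z : S.F) (x y : ℤ) (h0 : IsU (S.lvl.W 0) (z / (q : S.F) ^ x))
    (h1 : IsU (S.lvl.W 1) (z ^ (q - 1) / (q : S.F) ^ y)) :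
    IsU (S.lvl.V 0) (S.lvl.NA z / (q : S.FA) ^ (x + y)) := by
  have a0 : GU A (S.e0 (z / (q : S.F) ^ x)) := (isU_gVS_iff (h := S.normable_e0)).1 h0
  have a1 : GU A (S.e1 (z ^ (q - 1) / (q : S.F) ^ y)) := (isU_gVS_iff (h := S.normable_e1)).1 h1
  rw [map_div_q] at a0 a1
  rw [map_pow] at a1
  refine (isU_gVS_iff (h := S.normable_d0)).2 ?_
  show GU A (S.d0 (S.NA z / _))
  rw [map_div_q, d0_NA, zpow_add₀ (Nat.cast_ne_zero.2 S.hq.ne_zero), mul_inv]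
  exact gu_normAlong_a2 S.hq S.hqM S.hA S.hζ S.hι (iFix_bc0 _ z) a0 a1

theorem NVA1 (z : S.F) (x : ℤ) (h2 : IsU (S.lvl.W 2) (z / (q : S.F) ^ x)) :
    IsU (S.lvl.V 1) (S.lvl.NA z / (q : S.FA) ^ (q * x)) := by
  have a2' : GU A (S.e2 (z / (q : S.F) ^ x)) := (isU_gVS_iff (h := S.normable_e2)).1 h2
  rw [map_div_q] at a2'
  refine (isU_gVS_iff (h := S.normable_d1)).2 ?_
  show GU A (S.d1 (S.NA z / _))
  rw [map_div_q, d1_NA, mul_comm (q : ℤ) x, zpow_mul, zpow_natCast, ← inv_pow]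
  exact gu_wq_normAlong_a2 S.hq S.hqM S.hA S.hW2 a2'

theorem NVB1 (z : S.F) (x y : ℤ) (h2 : IsU (S.lvl.W 2) (z / (q : S.F) ^ x))
    (h1 : IsU (S.lvl.W 1) (z ^ (q - 1) / (q : S.F) ^ y)) :
    IsU (S.lvl.V 1) (S.lvl.NB z / (q : S.FA) ^ (x + y)) := by
  have a2' : GU A (S.e2 (z / (q : S.F) ^ x)) := (isU_gVS_iff (h := S.normable_e2)).1 h2
  have a1 : GU A (S.e1 (z ^ (q - 1) / (q : S.F) ^ y)) := (isU_gVS_iff (h := S.normable_e1)).1 h1
  rw [map_div_q] at a2' a1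
  rw [map_pow] at a1
  refine (isU_gVS_iff (h := S.normable_d1)).2 ?_
  show GU A (S.d1 (S.NB z / _))
  rw [map_div_q, d1_NB, zpow_add₀ (Nat.cast_ne_zero.2 S.hq.ne_zero), mul_inv]
  exact gu_wq_normAlong_b2 S.hq S.hqM S.hA S.hζ S.hι S.hW2 (iFix_bc0 _ z) a2' a1

theorem NVB0 (z : S.F) (x : ℤ) (h0 : IsU (S.lvl.W 0) (z / (q : S.F) ^ x)) :
    IsU (S.lvl.V 0) (S.lvl.NB z / (q : S.FA) ^ (q * x)) := by
  have a0 : GU A (S.e0 (z / (q : S.F) ^ x)) := (isU_gVS_iff (h := S.normable_e0)).1 h0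
  rw [map_div_q] at a0
  refine (isU_gVS_iff (h := S.normable_d0)).2 ?_
  show GU A (S.d0 (S.NB z / _))
  rw [map_div_q, d0_NB, mul_comm (q : ℤ) x, zpow_mul, zpow_natCast, ← inv_pow]
  exact gu_normAlong_b2 S.hq S.hA a0

end Setup

end Fermat.Agent.S36R.NormC
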