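import Fermat.Agent.S36R.K0.Fixed

/-!
# S36, route R, block NORM-C, leaf RD: descent of `n`-th roots from `Kbar` to `K0`
-/

set_option autoImplicit false

namespace Fermat.Agent.S36R.NormC

open AlgebraicCurve ModularCurve Fermat.Agent.S24 Fermat.Agent.GAL

/-- normalising the leading coefficient of an `n`-th root of a `φ`-fixed series gives a `φ`-fixed series. -/
theorem RootDesc_fix {L : Type*} [Field L] [IsAlgClosed L] [CharZero L] (φ : L →+* L) {n : ℕ}
    (hn : 0 < n) (s : LaurentSeries L) (hs : s ≠ 0) (h : coeffMap φ (s ^ n) = s ^ n) :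
    coeffMap φ (algebraMap L (LaurentSeries L) (s.coeff s.order)⁻¹ * s)
      = algebraMap L (LaurentSeries L) (s.coeff s.order)⁻¹ * s := by
  have : NeZero n := ⟨hn.ne'⟩
  obtain ⟨ζ, hζ⟩ := HasEnoughRootsOfUnity.exists_primitiveRoot L n
  have hζ' : IsPrimitiveRoot (algebraMap L (LaurentSeries L) ζ) n :=
    hζ.map_of_injective (algebraMap L (LaurentSeries L)).injective
  have h1 : (coeffMap φ s / s) ^ n = 1 := by
    rw [div_pow, ← map_pow, h, div_self (pow_ne_zero _ hs)]
  obtain ⟨i, -, hi⟩ := hζ'.eq_pow_of_pow_eq_one h1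
  have h2 : coeffMap φ s = algebraMap L (LaurentSeries L) (ζ ^ i) * s := by
    rw [map_pow, hi, div_mul_cancel₀ _ hs]
  have h3 : φ (s.coeff s.order) = ζ ^ i * s.coeff s.order := by
    have h4 := congrArg (fun z : LaurentSeries L => z.coeff s.order) h2
    simp only [coeffMap_coeff, algebraMap_laurentSeries_eq_single,
      HahnSeries.coeff_single_zero_mul] at h4
    exact h4
  have hc : s.coeff s.order ≠ 0 := fun h0 => hs (HahnSeries.coeff_order_eq_zero.mp h0)
  have hb : ζ ^ i ≠ 0 := pow_ne_zero _ (hζ.ne_zero hn.ne')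
  rw [map_mul, coeffMap_algebraMap, h2, map_inv₀, h3, ← mul_assoc, ← map_mul]
  congr 2
  field_simp

/-- a series which becomes constant after extension of the coefficients is constant. -/
theorem RootDesc_const {K L : Type*} [Field K] [Field L] (ι : K →+* L) (w : LaurentSeries K) (d : L)
    (h : coeffMap ι w = algebraMap L (LaurentSeries L) d) :
    w = algebraMap K (LaurentSeries K) (w.coeff 0) := by
  ext i
  rw [algebraMap_laurentSeries_eq_single]
  rcases eq_or_ne i 0 with rfl | hi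
  · rw [HahnSeries.coeff_single_same]
  · rw [HahnSeries.coeff_single_of_ne hi]
    have h1 := congrArg (fun z : LaurentSeries L => z.coeff i) h
    simp only [coeffMap_coeff, algebraMap_laurentSeries_eq_single,
      HahnSeries.coeff_single_of_ne hi] at h1
    exact (map_eq_zero ι).mp h1

variable (A : ValuationSubring Kbar)

/-- **Leaf RD.** If `g ∈ F_{K0}(N)` becomes an `n`-th power in `F_{Kbar}(N)` then `g = a * y₀ ^ n` with
`a ∈ K0`, `y₀ ∈ F_{K0}(N)`.
PROOF (normalise the leading coefficient).  `y ≠ 0`.  `s := (y : Kbar((t)))`, `m := s.order`,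
`c := s.coeff m ≠ 0` (`HahnSeries.coeff_order_ne_zero`), `y' := algebraMap Kbar _ c⁻¹ * y`, so that
`(y' : Kbar((t))).coeff m = 1` (`HahnSeries.C_mul_eq_smul` / `algebraMap_eq_C`-type lemmas, see the proof of
`exists_bc0_rep` in `K0/Fixed.lean` for the same manipulations).
1. `y' ^ n` is `I`-fixed up to a constant: for `τ ∈ I` put `y'' := arithmeticGalois _ τ • y'`. Then
   `y'' ^ n * algebraMap (τ c) ^ n = bc0 g = y' ^ n * algebraMap c ^ n` (`τ • bc0 g = bc0 g` by
   `mem_range_bc0_iff`), so `(y'' / y') ^ n` is the constant `(c / τ c) ^ n`; hence `y'' = algebraMap b * y'` for a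
   constant `b`: take `ζ` a primitive `n`-th root of unity of `Kbar`; `algebraMap ζ` is a primitive `n`-th root of unity of the field
   `FF Kbar N` (`IsPrimitiveRoot.map_of_injective`) and `(y'' / (y' * algebraMap (c / τ c))) ^ n = 1`, so
   `IsPrimitiveRoot.eq_pow_of_pow_eq_one` applies.
2. Compare the coefficients of `t ^ m` : `(y'' : Kbar((t))).coeff m = τ 1 = 1`
   (`coe_arithmeticGalois_smul`, `coeffMap_coeff`), and `(algebraMap b * y').coeff m = b`. So `b = 1`, `y'' = y'`.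
3. `mem_range_bc0_iff` : `y' = bc0 y₀`.  `w := g / y₀ ^ n` satisfies `bc0 w = algebraMap Kbar _ (c ^ n)`.
   So all coefficients of `(w : K0((t)))` of index `≠ 0` vanish; `a := (w : K0((t))).coeff 0`; `w = algebraMap K0 _ a`
   (`Subtype.ext`, `HahnSeries.ext`, injectivity of `algebraMap (K0 A) Kbar`, `coe_bc0`, `coeffMap_coeff`). -/
theorem exists_const_mul_pow (N : ℕ) {n : ℕ} (hn : 0 < n) (g : FF (K0 A) N) (hg : g ≠ 0)
    (y : FF Kbar N) (h : bc0 A N g = y ^ n) :
    ∃ (a : K0 A) (y₀ : FF (K0 A) N), a ≠ 0 ∧ y₀ ≠ 0 ∧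
      g = algebraMap (K0 A) (FF (K0 A) N) a * y₀ ^ n := by
  have hbg : bc0 A N g ≠ 0 := (map_ne_zero (bc0 A N)).mpr hg
  have hy0 : y ≠ 0 := by
    rintro rfl
    rw [zero_pow hn.ne'] at h
    exact hbg h
  have hs : (y : LaurentSeries Kbar) ≠ 0 := fun h0 => hy0 (Subtype.ext h0)
  set c : Kbar := (y : LaurentSeries Kbar).coeff (y : LaurentSeries Kbar).order with hc
  have hc0 : c ≠ 0 := fun h0 => hs (HahnSeries.coeff_order_eq_zero.mp h0)
  set y' : FF Kbar N := algebraMap Kbar (FF Kbar N) c⁻¹ * y with hy'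
  have hy'0 : y' ≠ 0 := mul_ne_zero ((map_ne_zero _).mpr (inv_ne_zero hc0)) hy0
  have hfix : ∀ τ ∈ A.inertiaSubgroupIn ℚ,
      arithmeticGalois (modularFunctionFieldFull N) τ • y' = y' := by
    intro τ hτ
    apply Subtype.ext
    rw [coe_arithmeticGalois_smul]
    refine RootDesc_fix (τ : Kbar →+* Kbar) hn (y : LaurentSeries Kbar) hs ?_
    have h1 := (mem_range_bc0_iff A N (bc0 A N g)).mp ⟨g, rfl⟩ τ hτ
    rw [h] at h1
    exact congrArg Subtype.val h1
  obtain ⟨y₀, hy₀⟩ := (mem_range_bc0_iff A N y').mpr hfix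
  have hy₀0 : y₀ ≠ 0 := by
    rintro rfl
    rw [map_zero] at hy₀
    exact hy'0 hy₀.symm
  have hbw : bc0 A N (g / y₀ ^ n) = algebraMap Kbar (FF Kbar N) (c ^ n) := by
    have h2 : algebraMap Kbar (FF Kbar N) c ≠ 0 := (map_ne_zero _).mpr hc0
    have h3 : y ^ n ≠ 0 := pow_ne_zero _ hy0
    rw [map_div₀, map_pow, hy₀, h, hy', mul_pow, map_pow, map_inv₀, inv_pow]
    field_simp
  have hw : g / y₀ ^ n = algebraMap (K0 A) (FF (K0 A) N)
      (((g / y₀ ^ n : FF (K0 A) N) : LaurentSeries (K0 A)).coeff 0) :=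
    Subtype.ext (RootDesc_const (algebraMap (K0 A) Kbar) _ (c ^ n) (congrArg Subtype.val hbw))
  have hw0 : g / y₀ ^ n ≠ 0 := div_ne_zero hg (pow_ne_zero _ hy₀0)
  refine ⟨((g / y₀ ^ n : FF (K0 A) N) : LaurentSeries (K0 A)).coeff 0, y₀, ?_, hy₀0, ?_⟩
  · intro h0
    rw [h0, map_zero] at hw
    exact hw0 hw
  · rw [← hw, div_mul_cancel₀ _ (pow_ne_zero _ hy₀0)]

end Fermat.Agent.S36R.NormC
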