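import Fermat.Agent.S36R.NormC.Good
import Fermat.Agent.S36R.NormC.ConstPow
import Fermat.Agent.S36R.NormC.RootDesc
import Fermat.Agent.S36R.End.New

/-!
# S36, route R, block NORM-C: the hypothesis `New S.lvl q n f` of block R-END from the vanishing of the
two norms over `Kbar`
-/

set_option autoImplicit false
set_option linter.unusedSectionVars false

namespace Fermat.Agent.S36R.NormC

open AlgebraicCurve ModularCurve Fermat.Agent.S24 Fermat.Agent.GAL Fermat.Agent.S36.StepA

variable {A : ValuationSubring Kbar} {M q : ℕ} [NeZero M] [NeZero q] (S : Setup A M q)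

namespace Setup

theorem isQPow_of_bc0_eq_pow {n : ℕ} (hn : ¬ q ∣ n) (hn0 : 0 < n) (g : S.FA) (hg : g ≠ 0)
    (y : FN (M * q)) (h : bc0 A (M * q) g = y ^ n) : IsQPow q n g := by
  obtain ⟨a, y₀, ha, hy₀, e⟩ := exists_const_mul_pow A (M * q) hn0 g hg y h
  exact isQPow_of_const (K := K0 A) (fun a ha => exists_q_zpow_mul_pow A S.hq S.hA hn a ha) ha hy₀ e

/-- **The hypothesis of R-END.** -/
theorem new_of {n : ℕ} (hn : ¬ q ∣ n) (hn0 : 0 < n) (f : S.F) (hf : f ≠ 0) (yA yB : FN (M * q))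
    (hA' : normAlong (a2 M q) (bc0 A (M * q * q) f) = yA ^ n)
    (hB' : normAlong (b2 M q) (bc0 A (M * q * q) f) = yB ^ n) : New S.lvl q n f where
  ne_zero := hf
  A := S.isQPow_of_bc0_eq_pow hn hn0 _ (hom_ne_zero _ hf) yA (by
    show bc0 A (M * q) (S.NA f) = _
    rw [bc0_NA, hA'])
  B := S.isQPow_of_bc0_eq_pow hn hn0 _ (hom_ne_zero _ hf) yB (by
    show bc0 A (M * q) (S.NB f) = _
    rw [bc0_NB, hB'])

end Setup

end Fermat.Agent.S36R.NormC
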